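/-
Classes vanishing on a principal congruence subgroup are Eisenstein: the eigenvalue at a prime
congruent to one is `ℓ + 1`.
-/
import Fermat.Agent.NewVec.HeckeMid

set_option autoImplicit false
set_option linter.style.haveILetI false
set_option linter.unusedSectionVars false

noncomputable section

namespace Fermat.Agent.GalRep.WildModel

open CongruenceSubgroup
open Fermat.Agent.GalRep Fermat.Agent.GalRep.Level
open Fermat.Agent.NewVec (exists_rep_eq exists_perm_shift)
open scoped MatrixGroups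

variable {N M ℓ : ℕ} [NeZero M] (hg : GoodIndex N ℓ) (hNM : N ∣ M) (hℓ : (ℓ : ZMod M) = 1)
  {R : Type} [AddCommGroup R]

include hNM hℓ in
/-- On classes vanishing on `Γ(M)` the transfer is multiplication by `ℓ + 1`. -/
theorem transferHom_eq_of_vanish (χ : ParHom N R) (h : ∀ γ : Gamma0 N, (γ : SL(2, ℤ)) ∈ Gamma M →
      (χ : Additive (Gamma0 N) →+ R) (Additive.ofMul γ) = 0) :
    transferHom hg (χ : Additive (Gamma0 N) →+ R) = (ℓ + 1) • (χ : Additive (Gamma0 N) →+ R) := by
  haveI : NeZero ℓ := ⟨hg.prime.ne_zero⟩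
  have hcop : Nat.Coprime M ℓ := by
    refine ((hg.prime.coprime_iff_not_dvd).mpr fun hd => ?_).symm
    have h1 := congrArg (ZMod.castHom hd (ZMod ℓ)) hℓ
    rw [map_natCast, map_one, ZMod.natCast_self] at h1
    haveI := Fact.mk hg.prime
    exact zero_ne_one h1
  obtain ⟨σ, t, hσ⟩ := exists_rep_eq (k := M) hcop
  refine AddMonoidHom.ext fun x => ?_
  obtain ⟨γ, rfl⟩ := Additive.ofMul.surjective x
  obtain ⟨e, -, hC⟩ := exists_perm_shift hg.prime hℓ (γ : SL(2, ℤ))
  choose C hCM hCe using hC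
  have hC0 : ∀ i, C i ∈ Gamma0 N := fun i => by
    have h1 : (C i) ∈ Gamma N := by
      rw [Gamma_mem]
      obtain ⟨a, b, c, d⟩ := Gamma_mem.mp (hCM i)
      have := fun (z : ℤ) (w : ℤ) (hz : (z : ZMod M) = w) =>
        congrArg (ZMod.castHom hNM (ZMod N)) hz
      simp only [map_intCast] at this
      refine ⟨?_, ?_, ?_, ?_⟩
      · simpa using this _ 1 (by simpa using a)
      · simpa using this _ 0 (by simpa using b)
      · simpa using this _ 0 (by simpa using c)
      · simpa using this _ 1 (by simpa using d)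
    exact Gamma0_mem.mpr (Gamma_mem.mp h1).2.2.1
  let U : ℤ → Gamma0 N := fun n =>
    ⟨ModularGroup.T ^ n, Gamma0_mem.mpr (by simp [ModularGroup.coe_T_zpow])⟩
  have hU : ∀ n, (χ : Additive (Gamma0 N) →+ R) (Additive.ofMul (U n)) = 0 := fun n =>
    χ.2 _ (by simp [U, ModularGroup.coe_T_zpow, Matrix.trace_fin_two])
  have hkey : ∀ i, (χ : Additive (Gamma0 N) →+ R) (Additive.ofMul (trCoef hg γ (σ i))) =
      (χ : Additive (Gamma0 N) →+ R) (Additive.ofMul γ) := by
    intro i
    have h1 : heckeRep ℓ (σ i) * gMat γ =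
        gMat ((U (t i))⁻¹ * ⟨C i, hC0 i⟩ * γ * U (t (e i))) * heckeRep ℓ (σ (e i)) := by
      have h2 := hCe i
      rw [hσ i, hσ (e i)] at h2
      have h3 := congrArg (fun X => ((((ModularGroup.T ^ t i)⁻¹ : SL(2, ℤ))) :
        Matrix (Fin 2) (Fin 2) ℤ) * X) h2
      simp only [← mul_assoc, ← Matrix.SpecialLinearGroup.coe_mul, inv_mul_cancel,
        Matrix.SpecialLinearGroup.coe_one, one_mul] at h3
      rw [gMat, h3]
      simp [gMat, U, mul_assoc]
    rw [(tr_unique hg h1).2]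
    simp only [ofMul_mul, ofMul_inv, map_add, map_neg, hU, neg_zero, zero_add, add_zero,
      h ⟨C i, hC0 i⟩ (hCM i)]
  rw [transferHom_apply, ← Equiv.sum_comp σ, Finset.sum_congr rfl fun i _ => hkey i,
    Finset.sum_const, Finset.card_univ, Fintype.card_option, Fintype.card_fin,
    AddMonoidHom.nsmul_apply]

include hNM hℓ in
/-- A non-Eisenstein eigenclass is determined by its restriction to `Γ(M)`. -/
theorem eq_zero_of_vanish {p : ℕ} [Fact p.Prime] {a : ZMod p} (ha : a ≠ (ℓ : ZMod p) + 1)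
    (χ : ParHom N (ZMod p))
    (heig : transferHom hg (χ : Additive (Gamma0 N) →+ ZMod p) =
      a • (χ : Additive (Gamma0 N) →+ ZMod p))
    (h : ∀ γ : Gamma0 N, (γ : SL(2, ℤ)) ∈ Gamma M →
      (χ : Additive (Gamma0 N) →+ ZMod p) (Additive.ofMul γ) = 0) : χ = 0 := by
  have h1 := transferHom_eq_of_vanish hg hNM hℓ χ h
  rw [heig] at h1
  refine Subtype.ext (AddMonoidHom.ext fun x => ?_)
  have h2 := DFunLike.congr_fun h1 x
  simp only [AddMonoidHom.smul_apply, smul_eq_mul, nsmul_eq_mul,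
    Nat.cast_add, Nat.cast_one] at h2
  exact (mul_eq_mul_right_iff.mp h2).resolve_left ha

include hNM in
/-- The same for `heckeHomAt`. -/
theorem eq_zero_of_heckeHomAt {p : ℕ} [Fact p.Prime] (l : GoodPrime N)
    (hl : ((l : ℕ) : ZMod M) = 1) {a : ZMod p} (ha : a ≠ ((l : ℕ) : ZMod p) + 1)
    (χ : ParHom N (ZMod p)) (heig : heckeHomAt l χ = a • χ)
    (h : ∀ γ : Gamma0 N, (γ : SL(2, ℤ)) ∈ Gamma M →
      (χ : Additive (Gamma0 N) →+ ZMod p) (Additive.ofMul γ) = 0) : χ = 0 :=
  eq_zero_of_vanish (goodIndex l) hNM hl ha χ (congrArg Subtype.val heig) h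

end Fermat.Agent.GalRep.WildModel
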