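/-
A root, up to a constant, of the ratio of two Kummer functions in the descended field makes the
classes agree on the level group; eigenclasses then agree.
-/
import Fermat.Agent.GalRep.Semistable.RepTools
import Fermat.Agent.GalRep.Semistable.Defect
import Fermat.Agent.GalRep.WildModel.Restrict
import Fermat.Agent.Models.Gamma0.Field

set_option autoImplicit false
set_option linter.style.haveILetI false
set_option linter.unusedSectionVars false

noncomputable section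

namespace Fermat.Agent.GalRep.WildModel

open UpperHalfPlane CongruenceSubgroup
open Fermat.Agent.GalRep Fermat.Agent.GalRep.Level
open Fermat.Agent.GalRep.Semistable (char_eq_on_of_pow_eq mul_comm_of_mem_levelFld)
open Fermat.Agent.ModField
open scoped MatrixGroups Manifold

variable {O : Type} [CommRing O] [IsDomain O] {M : ℕ} [NeZero M] {E : Emb O M} {N n q m : ℕ}
  [NeZero N] [NeZero n] {K : Subfield ℂ}

/-- Two classes whose Kummer functions differ by a power agree on the level group. -/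
theorem apply_eq_of_pow_eq {χ₁ χ₂ : ParHom N (ZMod n)} {F₁ F₂ : ℍ → ℂ}
    (hF₁ : IsRepG (Gamma0 N) n χ₁ F₁) (hF₂ : IsRepG (Gamma0 N) n χ₂ F₂) {b₁ b₂ : bddMF E}
    (hb₁ : ((b₁ : MF M) : ℍ → ℂ) = F₁ ^ n) (hb₂ : ((b₂ : MF M) : ℍ → ℂ) = F₂ ^ n)
    {h : Fld E} (hh : h ∈ levelFld E q m K) (h0 : h ≠ 0) {c : O} (hc : c ≠ 0)
    (he : h ^ n = algebraMap O (Fld E) c * (toFld E b₁ / toFld E b₂))
    (γ : Gamma0 N) (hγ : (γ : SL(2, ℤ)) ∈ levelG q m) :
    (χ₁ : Additive (Gamma0 N) →+ ZMod n) (Additive.ofMul γ) =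
      (χ₂ : Additive (Gamma0 N) →+ ZMod n) (Additive.ofMul γ) := by
  obtain ⟨a, b, hb, rfl⟩ := exists_eq_div E h
  have hne : ∀ {F : ℍ → ℂ} {χ : ParHom N (ZMod n)} {x : bddMF E}, IsRepG (Gamma0 N) n χ F →
      ((x : MF M) : ℍ → ℂ) = F ^ n → toFld E x ≠ 0 := fun hF hx =>
    (map_ne_zero_iff _ (toFld_injective E)).mpr fun h => hF.ne_zero (funext fun z =>
      (pow_eq_zero_iff (NeZero.ne n)).mp (by
        have := congrFun hx z
        rw [h] at this
        exact this.symm))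
  have hbF : toFld E b ≠ 0 := (map_ne_zero_iff _ (toFld_injective E)).mpr hb
  have ha0 : (a : MF M) ≠ 0 := fun h' => h0 (by
    rw [show a = 0 from Subtype.ext h', map_zero, zero_div])
  rw [div_pow, algebraMap_eq, mul_div_assoc', div_eq_div_iff (pow_ne_zero _ hbF)
    (hne hF₂ hb₂)] at he
  have key : a ^ n * b₂ = cstB E c * b₁ * b ^ n := toFld_injective E (by
    simp only [map_mul, map_pow]
    exact he)
  have hfun : ∀ z, (((a : MF M) : ℍ → ℂ) z * F₂ z) ^ n =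
      E.φ c * (((b : MF M) : ℍ → ℂ) z * F₁ z) ^ n := fun z => by
    have h1 := congrFun (congrArg (fun w : bddMF E => ((w : MF M) : ℍ → ℂ)) key) z
    simp only [MulMemClass.coe_mul, SubmonoidClass.coe_pow, Pi.mul_apply, Pi.pow_apply, hb₁,
      hb₂] at h1
    rw [show ((cstB E c : MF M) : ℍ → ℂ) z = E.φ c from rfl] at h1
    rw [mul_pow, mul_pow]
    linear_combination h1
  exact (char_eq_on_of_pow_eq hF₂ hF₁ ha0 (fun h' => hb (Subtype.ext h'))
    ((map_ne_zero_iff _ E.inj).mpr hc) hfun γ fun z => mul_comm_of_mem_levelFld hb hh hγ z).symm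

/-- The constant `1` represents the class `0`. -/
theorem isRepG_one : IsRepG (Gamma0 N) n (0 : ParHom N (ZMod n)) (1 : ℍ → ℂ) where
  holo := mdifferentiable_const
  ne_zero := one_ne_zero
  equivariant γ τ := by
    show (1 : ℂ) = ZMod.stdAddChar (0 : ZMod n) * 1
    rw [AddChar.map_zero_eq_one, one_mul]
  cusps := fun _ => ⟨1, _, one_pos, hasQSeries_serHom (1 : MF 1)⟩

/-- A class whose Kummer function is a power is zero on the level group. -/
theorem apply_eq_zero_of_pow_eq {χ : ParHom N (ZMod n)} {F : ℍ → ℂ}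
    (hF : IsRepG (Gamma0 N) n χ F) {b : bddMF E} (hb : ((b : MF M) : ℍ → ℂ) = F ^ n)
    {h : Fld E} (hh : h ∈ levelFld E q m K) (h0 : h ≠ 0) {c : O} (hc : c ≠ 0)
    (he : h ^ n = algebraMap O (Fld E) c * toFld E b) (γ : Gamma0 N)
    (hγ : (γ : SL(2, ℤ)) ∈ levelG q m) :
    (χ : Additive (Gamma0 N) →+ ZMod n) (Additive.ofMul γ) = 0 :=
  apply_eq_of_pow_eq hF isRepG_one hb (b₂ := (1 : bddMF E)) (by rw [one_pow]; rfl) hh h0 hc
    (by rw [map_one, div_one, he]) γ hγ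

/-- Eigenclasses with Kummer functions differing by a power are equal. -/
theorem eq_of_pow_eq {p : ℕ} [Fact p.Prime] (hNM : N ∣ M) (hqM : q ∣ M) (hmM : m ∣ M)
    (l : GoodPrime N) (hl : ((l : ℕ) : ZMod M) = 1) {a : ZMod p}
    (ha : a ≠ ((l : ℕ) : ZMod p) + 1) {χ₁ χ₂ : ParHom N (ZMod p)}
    (he₁ : heckeHomAt l χ₁ = a • χ₁) (he₂ : heckeHomAt l χ₂ = a • χ₂) {F₁ F₂ : ℍ → ℂ}
    (hF₁ : IsRepG (Gamma0 N) p χ₁ F₁) (hF₂ : IsRepG (Gamma0 N) p χ₂ F₂) {b₁ b₂ : bddMF E}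
    (hb₁ : ((b₁ : MF M) : ℍ → ℂ) = F₁ ^ p) (hb₂ : ((b₂ : MF M) : ℍ → ℂ) = F₂ ^ p)
    {h : Fld E} (hh : h ∈ levelFld E q m K) (h0 : h ≠ 0) {c : O} (hc : c ≠ 0)
    (he : h ^ p = algebraMap O (Fld E) c * (toFld E b₁ / toFld E b₂)) : χ₁ = χ₂ :=
  sub_eq_zero.mp (eq_zero_of_heckeHomAt hNM l hl ha (χ₁ - χ₂)
    (by rw [map_sub, he₁, he₂, smul_sub]) fun γ hγ => by
      show (χ₁ : Additive (Gamma0 N) →+ ZMod p) _ - (χ₂ : Additive (Gamma0 N) →+ ZMod p) _ = 0
      rw [sub_eq_zero]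
      exact apply_eq_of_pow_eq hF₁ hF₂ hb₁ hb₂ hh h0 hc he γ
        (gamma_le_levelG hqM hmM hγ))

end Fermat.Agent.GalRep.WildModel
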