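/-
Wild elements of inertia as automorphisms of the extended model over the field of `E[p]`.
-/
import Fermat.Agent.GalRep.InertiaBase.Field
import Fermat.Agent.EC.Local.WildField
import Fermat.Agent.Models.Wild.Defs
import Fermat.Agent.Models.Gamma0.InertiaRoot

set_option autoImplicit false
set_option linter.style.haveILetI false
set_option linter.unusedSectionVars false

noncomputable section

namespace Fermat.Agent.GalRep.WildModel

open IsLocalRing
open Fermat.Agent.GalRep.InertiaBase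
open Fermat.Agent.NewVec
open Fermat.Agent.Models (TotRam TrivialMod IsWildAut SemiPoints)
open Fermat.Agent.ModField
open Fermat.Agent.GalRep.Model (chartRing)

local notation "Qb" => AlgebraicClosure ℚ
local notation "GQ" => (AlgebraicClosure ℚ) ≃ₐ[ℚ] (AlgebraicClosure ℚ)

variable {A : ValuationSubring (AlgebraicClosure ℚ)}

section Break

variable {L : IntermediateField ℚ (AlgebraicClosure ℚ)} [FiniteDimensional ℚ L] [Normal ℚ L]
  {q : ℕ}

/-- A break on valuations gives the break on the ring. -/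
theorem exists_beta (hq : q.Prime) (hA : A.LiesOverPrime q) {σ : A.inertiaSubgroupIn ℚ} {b : ℕ}
    (h : A.valuation ((σ : GQ) (rVal A L (rUnif hq hA)) / rVal A L (rUnif hq hA) - 1) =
      A.valuation (rVal A L (rUnif hq hA)) ^ b) :
    ∃ β : rBase A L, IsUnit β ∧
      rAct L σ (rUnif hq hA) = rUnif hq hA * (1 + β * rUnif hq hA ^ b) ∧
      ∀ a : rBase A L, rUnif hq hA ^ (b + 1) ∣ rAct L σ a - a := by
  obtain ⟨u, hu⟩ := exists_rAct_rUnif (L := L) hq hA σ
  set ϖ := rUnif (L := L) hq hA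
  have hϖ : rVal A L ϖ ≠ 0 := rUnif_ne hq hA
  set x : Qb := rVal A L ((u : rBase A L) - 1) / rVal A L ϖ ^ b
  have hv : A.valuation x = 1 := by
    have h1 : (σ : GQ) (rVal A L ϖ) / rVal A L ϖ - 1 = rVal A L ((u : rBase A L) - 1) := by
      rw [← rVal_rAct, hu, map_mul, mul_div_cancel_left₀ _ hϖ, map_sub, map_one]
    rw [h1] at h
    rw [map_div₀, map_pow, h, div_self (pow_ne_zero _ ((_root_.map_ne_zero _).mpr hϖ))]
  have hx : x ∈ rFld A L :=
    div_mem (rVal_mem_rFld A L _) (pow_mem (rVal_mem_rFld A L ϖ) _)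
  let β : rBase A L := ⟨⟨x, hx⟩, (A.valuation_le_one_iff _).mp hv.le⟩
  have hβ : (u : rBase A L) - 1 = β * ϖ ^ b := rVal_injective A L (by
    rw [map_mul, map_pow]
    exact (div_mul_cancel₀ _ (pow_ne_zero _ hϖ)).symm)
  refine ⟨β, (isUnit_cut_iff _ β).mpr hv, ?_, fun a => ?_⟩
  · rw [← hβ, add_sub_cancel, hu]
  · refine (Dvd.intro β ?_).trans (dvd_rAct_sub hq hA hu a)
    rw [hβ, pow_succ]
    ring

end Break

/-- A wild element of inertia on the ring of the field of `E[p]`. -/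
theorem exists_wild_beta (P : FreyPackage) [Fact P.p.Prime] (hA : A.LiesOverPrime P.p)
    (hd : (P.p : ℤ) ∣ P.a * P.b * P.c) (h : ∃ s ∈ A.inertiaSubgroupIn ℚ,
      (∀ z : Qb, z ^ P.p = 1 → s z = z) ∧ ∃ x : EC.FreyTorsion P, s • x ≠ x) :
    rIdx (L := EC.torsionFld P) P.pp hA = P.p * (P.p - 1) ∧
      ∃ (τ : A.inertiaSubgroupIn ℚ) (b : ℕ) (β : rBase A (EC.torsionFld P)),
        (∀ z : Qb, z ^ P.p = 1 → (τ : GQ) z = z) ∧ (∃ x : EC.FreyTorsion P, (τ : GQ) • x ≠ x) ∧
        0 < b ∧ b < P.p ∧ IsUnit β ∧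
        rAct (EC.torsionFld P) τ (rUnif P.pp hA) =
          rUnif P.pp hA * (1 + β * rUnif P.pp hA ^ b) ∧
        ∀ a : rBase A (EC.torsionFld P),
          rUnif P.pp hA ^ (b + 1) ∣ rAct (EC.torsionFld P) τ a - a := by
  obtain ⟨he, τ, hτ, hτμ, hτx, b, hb1, hb2, hv⟩ := EC.exists_wild_base P hA hd h
  obtain ⟨β, hβ, h1, h2⟩ := exists_beta P.pp hA (σ := ⟨τ, hτ⟩) hv
  exact ⟨he, ⟨τ, hτ⟩, b, β, hτμ, hτx, hb1, lt_of_le_of_lt hb2 (Nat.sub_lt P.pp.pos one_pos),
    hβ, h1, h2⟩

section Level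

variable (P : FreyPackage) [Fact P.p.Prime]

/-- The field of `E[p]` with a root of unity of order `M`. -/
def wildLevel (M : ℕ) [NeZero M] : IntermediateField ℚ Qb :=
  EC.torsionFld P ⊔ IntermediateField.adjoin ℚ ({zetaQ M} : Set Qb)

instance finite_adjoin_zetaQ (M : ℕ) [NeZero M] :
    FiniteDimensional ℚ (IntermediateField.adjoin ℚ ({zetaQ M} : Set Qb)) :=
  IntermediateField.adjoin.finiteDimensional (Algebra.IsIntegral.isIntegral (R := ℚ) (zetaQ M))

instance normal_adjoin_zetaQ (M : ℕ) [NeZero M] :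
    Normal ℚ (IntermediateField.adjoin ℚ ({zetaQ M} : Set Qb)) := by
  haveI : Normal ℚ Qb := IsGalois.to_normal
  refine IntermediateField.normal_iff_forall_map_le'.mpr fun σ => ?_
  rw [IntermediateField.adjoin_map, Set.image_singleton, IntermediateField.adjoin_le_iff,
    Set.singleton_subset_iff]
  have h : ((σ : GQ) (zetaQ M)) ^ M = 1 := by
    rw [← map_pow, (isPrimitiveRoot_zetaQ M).pow_eq_one, map_one]
  obtain ⟨i, -, hi⟩ := (isPrimitiveRoot_zetaQ M).eq_pow_of_pow_eq_one h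
  show (σ : GQ) (zetaQ M) ∈ _
  rw [← hi]
  exact pow_mem (IntermediateField.mem_adjoin_simple_self ℚ _) i

instance finite_wildLevel (M : ℕ) [NeZero M] : FiniteDimensional ℚ (wildLevel P M) :=
  IntermediateField.finiteDimensional_sup _ _

instance normal_wildLevel (M : ℕ) [NeZero M] : Normal ℚ (wildLevel P M) :=
  @IntermediateField.normal_sup ℚ Qb _ _ _ _ _ (EC.normal_torsionFld P) (normal_adjoin_zetaQ M)

theorem zetaQ_mem_wildLevel (M : ℕ) [NeZero M] : zetaQ M ∈ wildLevel P M :=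
  (le_sup_right : _ ≤ wildLevel P M) (IntermediateField.mem_adjoin_simple_self ℚ _)

theorem torsionFld_le_wildLevel (M : ℕ) [NeZero M] : EC.torsionFld P ≤ wildLevel P M :=
  le_sup_left

/-- Adjoining roots of unity of order `p m`, `p ∤ m`, does not enlarge the compositum. -/
theorem rFld_wildLevel (hA : A.LiesOverPrime P.p) {M m : ℕ} [NeZero M] (hM : M = P.p * m)
    (hm : ¬ P.p ∣ m) : rFld A (wildLevel P M) = rFld A (EC.torsionFld P) := by
  refine le_antisymm (IntermediateField.adjoin_le_iff.mpr ?_)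
    (IntermediateField.adjoin_le_iff.mpr fun x hx =>
      mem_rFld_of_mem A _ (torsionFld_le_wildLevel P M hx))
  intro x hx
  let T : IntermediateField ℚ Qb :=
    { (rFld A (EC.torsionFld P)).toSubfield with
      algebraMap_mem' := fun c => by
        rw [IsScalarTower.algebraMap_apply ℚ (inertiaFld A) Qb]
        exact IntermediateField.algebraMap_mem _ _ }
  suffices h : wildLevel P M ≤ T from h hx
  refine sup_le (fun y hy => mem_rFld_of_mem A _ hy)
    (IntermediateField.adjoin_le_iff.mpr (Set.singleton_subset_iff.mpr ?_))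
  show zetaQ M ∈ rFld A (EC.torsionFld P)
  haveI : NeZero P.p := ⟨P.hp0⟩
  have hz := (isPrimitiveRoot_zetaQ M).pow_eq_one
  obtain ⟨a, b, hab⟩ := ((P.pp.coprime_iff_not_dvd).mpr hm).isCoprime
  have h0 : zetaQ M ≠ 0 := (isPrimitiveRoot_zetaQ M).ne_zero (NeZero.ne M)
  have hsplit : zetaQ M = (zetaQ M ^ P.p) ^ a * (zetaQ M ^ m) ^ b := by
    rw [← zpow_natCast, ← zpow_natCast _ m, ← zpow_mul, ← zpow_mul, ← zpow_add₀ h0,
      show (P.p : ℤ) * a + (m : ℤ) * b = 1 by rw [mul_comm, mul_comm (m : ℤ)]; exact hab, zpow_one]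
  have h1 : zetaQ M ^ P.p ∈ rFld A (EC.torsionFld P) :=
    inertia_mem_rFld A _ ⟨_, root_mem_inertiaFld A P.pp hA hm (by rw [← pow_mul, ← hM, hz])⟩
  have h2 : zetaQ M ^ m ∈ rFld A (EC.torsionFld P) := by
    obtain ⟨i, -, hi⟩ := (isPrimitiveRoot_zetaQ P.p).eq_pow_of_pow_eq_one
      (show (zetaQ M ^ m) ^ P.p = 1 by rw [← pow_mul, mul_comm, ← hM, hz])
    rw [← hi]
    exact pow_mem (mem_rFld_of_mem A _ (EC.zetaQ_mem_torsionFld P)) i
  rw [hsplit]
  exact mul_mem (zpow_mem h1 a) (zpow_mem h2 b)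

/-- A wild element on the ring of any level `p m`, `p ∤ m`. -/
theorem exists_wild_level (hA : A.LiesOverPrime P.p)
    (hd : (P.p : ℤ) ∣ P.a * P.b * P.c) (h : ∃ s ∈ A.inertiaSubgroupIn ℚ,
      (∀ z : Qb, z ^ P.p = 1 → s z = z) ∧ ∃ x : EC.FreyTorsion P, s • x ≠ x)
    {M m : ℕ} [NeZero M] (hM : M = P.p * m) (hm : ¬ P.p ∣ m) :
    rIdx (L := wildLevel P M) P.pp hA = P.p * (P.p - 1) ∧
      ∃ (τ : A.inertiaSubgroupIn ℚ) (b : ℕ) (β : rBase A (wildLevel P M)),
        (∀ z : Qb, z ^ P.p = 1 → (τ : GQ) z = z) ∧ (∃ x : EC.FreyTorsion P, (τ : GQ) • x ≠ x) ∧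
        0 < b ∧ b < P.p ∧ IsUnit β ∧
        rAct (wildLevel P M) τ (rUnif P.pp hA) =
          rUnif P.pp hA * (1 + β * rUnif P.pp hA ^ b) ∧
        ∀ a : rBase A (wildLevel P M),
          rUnif P.pp hA ^ (b + 1) ∣ rAct (wildLevel P M) τ a - a := by
  obtain ⟨he, τ, hτ, hτμ, ⟨x, hx⟩, b, hb1, hb2, hv⟩ := EC.exists_wild_base P hA hd h
  set σ : A.inertiaSubgroupIn ℚ := ⟨τ, hτ⟩
  have hF := rFld_wildLevel P hA hM hm
  have he' : rIdx (L := wildLevel P M) P.pp hA = P.p * (P.p - 1) := by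
    rw [← finrank_rFld P.pp hA, hF, finrank_rFld P.pp hA, he]
  -- the values of the uniformisers agree
  set π := rVal A _ (rUnif (L := EC.torsionFld P) P.pp hA) with hπdef
  set π' := rVal A _ (rUnif (L := wildLevel P M) P.pp hA) with hπ'def
  have hvπ : A.valuation π' = A.valuation π := by
    refine (pow_left_inj₀ zero_le zero_le (rIdx_pos (L := wildLevel P M) P.pp hA).ne').mp ?_
    rw [hπ'def, val_rUnif_pow (L := wildLevel P M) P.pp hA, he', ← he,
      hπdef, val_rUnif_pow (L := EC.torsionFld P) P.pp hA]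
  have hfix : ∀ y ∈ rFld A (wildLevel P M), ((σ ^ P.p : A.inertiaSubgroupIn ℚ) : GQ) y = y := by
    rw [hF]
    refine fun y hy => EC.fix_rFld (σ ^ P.p).2 ((EC.fix_torsionFld_iff P).mpr fun z => ?_) hy
    show ((σ ^ P.p : A.inertiaSubgroupIn ℚ) : GQ) • z = z
    have hd' := EC.smul_sub_mem_big_all P hA hd hτ z
    have hw : EC.freyOmega P τ = 1 := (EC.freyOmega_one_iff P).mpr hτμ
    have hfixd : τ • (τ • z - z) = τ • z - z :=
      (EC.smul_of_mem_big P hA hd hτ hd').trans (by rw [hw, one_smul])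
    have hpow : ∀ n : ℕ, (τ ^ n) • z = z + (n : ZMod P.p) • (τ • z - z) := by
      intro n
      induction n with
      | zero => rw [pow_zero, one_smul, Nat.cast_zero, zero_smul, add_zero]
      | succ n ih =>
        rw [pow_succ', mul_smul, ih, smul_add, smul_comm, hfixd, Nat.cast_succ, add_smul,
          one_smul]
        abel
    rw [SubgroupClass.coe_pow, show (σ : GQ) = τ from rfl, hpow, ZMod.natCast_self, zero_smul,
      add_zero]
  have hmov : ∃ y ∈ rFld A (wildLevel P M), (σ : GQ) y ≠ y := by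
    by_contra hcon
    push Not at hcon
    exact hx ((EC.fix_torsionFld_iff P).mp (fun y hy =>
      hcon y (hF.symm ▸ mem_rFld_of_mem A _ hy)) x)
  obtain ⟨-, b', hb'1, hb'v, hb'φ⟩ := exists_break (L := wildLevel P M) P.pp hA hfix hmov
  have hb' : b' ≤ b := by
    have h1 := hb'φ π (hF.symm ▸ rVal_mem_rFld A _ _)
      ((A.valuation_le_one_iff _).mpr (rVal_mem A _ _))
    have hπ0 : π ≠ 0 := rUnif_ne (L := EC.torsionFld P) P.pp hA
    rw [show (σ : GQ) π - π = (τ π / π - 1) * π by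
        rw [sub_mul, div_mul_cancel₀ _ hπ0, one_mul],
      map_mul, hv, ← pow_succ, ← hπ'def, hvπ] at h1
    have := (pow_right_strictAnti₀ (zero_lt_iff.mpr ((_root_.map_ne_zero A.valuation).mpr hπ0))
      (val_rUnif_lt (L := EC.torsionFld P) P.pp hA)).le_iff_ge.mp h1
    omega
  obtain ⟨β, hβ, h1, h2⟩ := exists_beta P.pp hA hb'v
  exact ⟨he', σ, b', β, hτμ, ⟨x, hx⟩, hb'1,
    lt_of_le_of_lt (hb'.trans hb2) (Nat.sub_lt P.pp.pos one_pos), hβ, h1, h2⟩

end Level

/-- Automorphisms fixing the chart and moving constants by multiples of `d` are trivial modulo `d`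
on the extended chart. -/
theorem trivialMod_extend_of_dvd {O O' F F' : Type} [CommRing O] [CommRing O'] [Field F] [Field F']
    [Algebra O F] [Algebra O O'] [Algebra O' F'] [Algebra F F'] [Algebra O F']
    [IsScalarTower O F F'] [IsScalarTower O O' F'] (X : TotRam O O' F F') {B : Subalgebra O F}
    {d : O'} {τ : F' →+* F'} (hfix : ∀ b ∈ B, τ (algebraMap F F' b) = algebraMap F F' b)
    (hres : ∀ a : O', ∃ a' : O', τ (algebraMap O' F' a) - algebraMap O' F' a =
      algebraMap O' F' (d * a')) :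
    TrivialMod (X.extend B) d τ := by
  rintro _ ⟨b, hb, rfl⟩
  choose a ha using fun i : Fin X.e => hres (X.ϖ ^ (i : ℕ))
  refine ⟨∑ i, algebraMap F F' (b i) * algebraMap O' F' (a i), Subalgebra.sum_mem _ fun i _ =>
    mul_mem (X.map_mem_extend B (hb i)) ((X.extend B).algebraMap_mem _), ?_⟩
  rw [map_sum, ← Finset.sum_sub_distrib, Finset.smul_sum]
  refine Finset.sum_congr rfl fun i _ => ?_
  rw [map_mul, hfix _ (hb i), ← mul_sub, Algebra.smul_def, TotRam.gen, ← map_pow, ha i, map_mul]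
  ring

variable {L : IntermediateField ℚ (AlgebraicClosure ℚ)} [FiniteDimensional ℚ L] [Normal ℚ L]
  {q m n : ℕ} [NeZero n] {hζ : zetaQ n ∈ L}

/-- A wild element is a wild automorphism of any model extended from the base. -/
theorem isWildAut_tauTop (hn : n = q * m) (hq : q.Prime) (hA : A.LiesOverPrime q)
    {σ : A.inertiaSubgroupIn ℚ} {b : ℕ} (hb : 0 < b) {β : rBase A L} (hβ : IsUnit β)
    (hϖ : rAct L σ (rUnif hq hA) = rUnif hq hA * (1 + β * rUnif hq hA ^ b))
    (hres : ∀ a : rBase A L, rUnif hq hA ^ (b + 1) ∣ rAct L σ a - a)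
    (Md : Models.Model (rBase A L) (rTop A L hζ q m)) {w₀ : wTop A n q m}
    {B B' : Subalgebra (wBase A) (wTop A n q m)}
    (hw : Md.w = algebraMap (wTop A n q m) (rTop A L hζ q m) w₀)
    (h₀ : Md.B₀ = (totRam (hζ := hζ) hn hq hA).extend B)
    (h₁ : Md.B₁ = (totRam (hζ := hζ) hn hq hA).extend B') :
    IsWildAut Md (rUnif hq hA) (algebraMap (wTop A n q m) (rTop A L hζ q m)).fieldRange
      (tauTop hζ hn σ) b β := by
  have h1 : ∀ a : rBase A L, ∃ a' : rBase A L,
      tauTop hζ hn σ (algebraMap (rBase A L) (rTop A L hζ q m) a) -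
        algebraMap (rBase A L) (rTop A L hζ q m) a =
      algebraMap (rBase A L) (rTop A L hζ q m) (rUnif hq hA ^ (b + 1) * a') := fun a => by
    obtain ⟨a', ha⟩ := hres a
    exact ⟨a', by rw [tauTop_algebraMap, ← map_sub, ha]⟩
  have htriv : ∀ C : Subalgebra (wBase A) (wTop A n q m),
      TrivialMod ((totRam (hζ := hζ) hn hq hA).extend C) (rUnif hq hA ^ (b + 1))
        (tauTop hζ hn σ) := fun C =>
    trivialMod_extend_of_dvd (O := wBase A) (O' := rBase A L) (F := wTop A n q m)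
      (F' := rTop A L hζ q m) (totRam (hζ := hζ) hn hq hA) (B := C)
      (d := rUnif hq hA ^ (b + 1)) (τ := tauTop hζ hn σ) (fun x _ => tauTop_base hn σ x) h1
  refine ⟨?_, ?_, hβ, hb, ⟨0, ?_⟩, fun a => ⟨_, tauTop_algebraMap hn σ a⟩, ?_, ?_⟩
  · rintro _ ⟨x, rfl⟩
    exact tauTop_base hn σ x
  · rw [hw]
    exact tauTop_base hn σ w₀
  · exact (tauTop_algebraMap hn σ _).trans (congrArg (algebraMap (rBase A L) (rTop A L hζ q m))
      (hϖ.trans (by ring)))
  · rw [h₀]; exact htriv B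
  · rw [h₁]; exact htriv B'

/-- The automorphism on the two descended charts over the ramified base. -/
theorem isWildAut_model₀ [IsDiscreteValuationRing (rBase A L)] (hn : n = q * m) (hq : q.Prime)
    (hA : A.LiesOverPrime q) (hqm : ¬ q ∣ m)
    (hpts₀ : SemiPoints (chartRing (wBase A) (jF₀ (wBase A) (embO A n) q m)) (q : wBase A))
    (hpts₁ : SemiPoints (chartRing (wBase A) (jF₀ (wBase A) (embO A n) q m)⁻¹) (q : wBase A))
    {σ : A.inertiaSubgroupIn ℚ} {b : ℕ} (hb : 0 < b) {β : rBase A L} (hβ : IsUnit β)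
    (hϖ : rAct L σ (rUnif hq hA) = rUnif hq hA * (1 + β * rUnif hq hA ^ b))
    (hres : ∀ a : rBase A L, rUnif hq hA ^ (b + 1) ∣ rAct L σ a - a) :
    IsWildAut (model₀ (rBase A L) (embR A L hζ) q m) (rUnif hq hA)
      (algebraMap (wTop A n q m) (rTop A L hζ q m)).fieldRange (tauTop hζ hn σ) b β := by
  haveI := (wBase_props A hq hA).1
  haveI := (oBase_dvr (A := A) (M := n) hq hA hn hqm).1
  haveI := Semistable.finite_oBase (A := A) (M := n) hq hA hn hqm
  set X := totRam (hζ := hζ) hn hq hA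
  have hw := algebraMap_top_jF₀ (A := A) (L := L) (hζ := hζ) (q := q) (m := m)
  have hw' : algebraMap (wTop A n q m) (rTop A L hζ q m) (jF₀ (wBase A) (embO A n) q m)⁻¹ =
      (jF₀ (rBase A L) (embR A L hζ) q m)⁻¹ := by rw [map_inv₀, hw]
  have he₀ : chartRing (rBase A L) (jF₀ (rBase A L) (embR A L hζ) q m) =
      X.extend (chartRing (wBase A) (jF₀ (wBase A) (embO A n) q m)) := by
    rw [← hw]
    exact (extend_chart X (by rw [coe_jF₀]; exact aeval_jF_injective _)
      (by rw [coe_jF₀]; exact fixedRational_jF _) hpts₀).symm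
  have he₁ : chartRing (rBase A L) (jF₀ (rBase A L) (embR A L hζ) q m)⁻¹ =
      X.extend (chartRing (wBase A) (jF₀ (wBase A) (embO A n) q m)⁻¹) := by
    rw [← hw']
    exact (extend_chart X (by rw [coe_inv_jF₀]; exact aeval_inv_jF_injective _)
      (by rw [coe_inv_jF₀]; exact fixedRational_inv_jF _) hpts₁).symm
  exact isWildAut_tauTop hn hq hA hb hβ hϖ hres (model₀ (rBase A L) (embR A L hζ) q m)
    hw.symm he₀ he₁

/-- A wild automorphism of the model at level `p m` over the field of `E[p]`. -/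
theorem exists_wildAut (P : FreyPackage) [Fact P.p.Prime] (hA : A.LiesOverPrime P.p)
    (hd : (P.p : ℤ) ∣ P.a * P.b * P.c) (h : ∃ s ∈ A.inertiaSubgroupIn ℚ,
      (∀ z : Qb, z ^ P.p = 1 → s z = z) ∧ ∃ x : EC.FreyTorsion P, s • x ≠ x)
    {M m : ℕ} [NeZero M] (hM : M = P.p * m) (hm : ¬ P.p ∣ m)
    [IsDiscreteValuationRing (rBase A (wildLevel P M))]
    (hpts₀ : SemiPoints (chartRing (wBase A) (jF₀ (wBase A) (embO A M) P.p m)) (P.p : wBase A))
    (hpts₁ : SemiPoints (chartRing (wBase A) (jF₀ (wBase A) (embO A M) P.p m)⁻¹) (P.p : wBase A)) :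
    rIdx (L := wildLevel P M) P.pp hA = P.p * (P.p - 1) ∧
      ∃ (τ : A.inertiaSubgroupIn ℚ) (b : ℕ) (β : rBase A (wildLevel P M)),
        (∀ z : Qb, z ^ P.p = 1 → (τ : GQ) z = z) ∧ (∃ x : EC.FreyTorsion P, (τ : GQ) • x ≠ x) ∧
        b < P.p ∧
        IsWildAut (model₀ (rBase A (wildLevel P M))
            (embR A (wildLevel P M) (zetaQ_mem_wildLevel P M)) P.p m)
          (rUnif P.pp hA)
          (algebraMap (wTop A M P.p m)
            (rTop A (wildLevel P M) (zetaQ_mem_wildLevel P M) P.p m)).fieldRange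
          (tauTop (zetaQ_mem_wildLevel P M) hM τ) b β := by
  obtain ⟨he, τ, b, β, hτμ, hτx, hb, hbp, hβ, h1, h2⟩ := exists_wild_level P hA hd h hM hm
  exact ⟨he, τ, b, β, hτμ, hτx, hbp,
    isWildAut_model₀ hM P.pp hA hm hpts₀ hpts₁ hb hβ h1 h2⟩

end Fermat.Agent.GalRep.WildModel
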