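/-
The level model over a ramified base at a place is a wild two-component model.
-/
import Fermat.Agent.Models.Gamma0.WildInstance
import Fermat.Agent.GalRep.InertiaBase.Field
import Fermat.Agent.GalRep.InertiaBase.Exports
import Fermat.Agent.GalRep.Semistable.SemiModel

set_option autoImplicit false
set_option linter.style.haveILetI false
set_option linter.unusedSectionVars false

noncomputable section

namespace Fermat.Agent.GalRep.WildModel

open IsLocalRing
open Fermat.Agent.ModField
open Fermat.Agent.NewVec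
open Fermat.Agent.GalRep.InertiaBase
open Fermat.Agent.GalRep.Semistable
open Fermat.Agent.Models (IsWildModel)

local notation "Qb" => AlgebraicClosure ℚ

variable {A : ValuationSubring (AlgebraicClosure ℚ)} {L : IntermediateField ℚ (AlgebraicClosure ℚ)}
  [FiniteDimensional ℚ L] [Normal ℚ L] {q m : ℕ} [NeZero (q * m)]

/-- The uniformiser of the ramified base. -/
theorem irreducible_rUnif (hq : q.Prime) (hA : A.LiesOverPrime q) :
    Irreducible (rUnif (L := L) hq hA) :=
  (rBase_dvr hq hA).2.2

theorem embO_value {M : ℕ} [NeZero M] (hζ : zetaQ M ∈ L) (a : oBase A M) :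
    ∃ a' : rBase A L, (embR A L hζ).φ a' = (embO A M).φ a :=
  ⟨⟨⟨oVal A M a, oFld_le_rFld A L M hζ a.1.2⟩, a.2⟩, rfl⟩

/-- The level model over the ramified base. -/
theorem isWildModel (hq : q.Prime) (hA : A.LiesOverPrime q) (hqm : ¬ q ∣ m)
    (hζ : zetaQ (q * m) ∈ L) (hcharts : ChartsSemi A q m) [IsDiscreteValuationRing (rBase A L)] :
    IsWildModel (model₀ (rBase A L) (embR A L hζ) q m) (rUnif hq hA)
      (twoP (rBase A L) (embR A L hζ) q m (irreducible_rUnif hq hA)) (rIdx (L := L) hq hA) q
      (algebraMap (wTop A (q * m) q m) (rTop A L hζ q m)).fieldRange := by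
  haveI : Fact q.Prime := ⟨hq⟩
  obtain ⟨hWdvr, hqW, hWac⟩ := wBase_props A hq hA
  haveI := hWdvr
  haveI := hWac
  haveI : NeZero m := ⟨fun h => NeZero.ne (q * m) (by rw [h, mul_zero])⟩
  haveI := (oBase_dvr (A := A) (M := q * m) hq hA rfl hqm).1
  haveI := finite_oBase (A := A) (M := q * m) hq hA rfl hqm
  haveI := isAlgClosed_rBase (L := L) hq hA
  exact isWildModel_level hqW (dvd_mul_right q m) (dvd_mul_left m q) hqm hcharts.1
    (fun x => toLS_algebraMap_top x) (embO_K_le hζ) (embO_value hζ)
    (totRam (hζ := hζ) rfl hq hA) rfl (irreducible_rUnif hq hA) hcharts.2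

end Fermat.Agent.GalRep.WildModel
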