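/-
The Kummer function of a class fixed by the inertia elements fixing the base field, as an element of
the descended field over the ramified base; inertia acts through the Galois action on classes.
-/
import Fermat.Agent.GalRep.Semistable.RepTools
import Fermat.Agent.GalRep.InertiaBase.Field
import Fermat.Agent.GalRep.InertiaBase.Aut

set_option autoImplicit false
set_option linter.style.haveILetI false
set_option linter.unusedSectionVars false

noncomputable section

namespace Fermat.Agent.GalRep.WildModel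

open UpperHalfPlane CongruenceSubgroup IsLocalRing
open Fermat.Agent.Galois (GQ)
open Fermat.Agent.GalRep Fermat.Agent.GalRep.Level
open Fermat.Agent.GalRep.InertiaBase
open Fermat.Agent.GalRep.Semistable (serAlg_of_rep_pow repG_of_kummer)
open Fermat.Agent.ModField
open Fermat.Agent.NewVec
open scoped MatrixGroups Manifold

local notation "Qb" => AlgebraicClosure ℚ

variable {N n : ℕ} [NeZero N] [NeZero n]

/-- An element fixing the class fixes the coefficients of the normal series. -/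
theorem liftAut_normalSeries {χ : ParHom N (ZMod n)} {s : GQ}
    (h : (kummerGalois N n).galois s χ = χ) :
    lmap (liftAut s).toRingHom (normalSeries χ) = normalSeries χ := by
  rw [lmap_normalSeries, show autChar (liftAut s) χ = χ from
    ((kummerGalois N n).galois_eq s χ).symm.trans h]

variable {A : ValuationSubring (AlgebraicClosure ℚ)} {L : IntermediateField ℚ (AlgebraicClosure ℚ)}
  [FiniteDimensional ℚ L] [Normal ℚ L]

/-- The coefficients of the normal series lie in the compositum. -/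
theorem exists_coeff_normalSeries {χ : ParHom N (ZMod n)}
    (hfix : ∀ s ∈ A.inertiaSubgroupIn ℚ, (∀ x ∈ L, s x = x) → (kummerGalois N n).galois s χ = χ)
    (i : ℤ) : ∃ y ∈ rFld A L, qbarToC y = (normalSeries χ).coeff i := by
  obtain ⟨y, hy⟩ := exists_qbarToC_eq (isAlgebraic_normalSeries χ i)
  refine ⟨y, mem_rFld_of_fixed A L fun s hs hsL => qbarToC.injective ?_, hy⟩
  rw [← liftAut_spec, hy]
  conv_rhs => rw [← liftAut_normalSeries (hfix s hs hsL)]
  rw [lmap_coeff]
  rfl

variable {M q m : ℕ} [NeZero M]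

/-- The level group lies in `Γ₀(N)` for `N ∣ q m`, `q ∤ m`. -/
theorem levelG_le_gamma0 (hq : q.Prime) (hqm : ¬ q ∣ m) (hN : N ∣ q * m) {γ : SL(2, ℤ)}
    (hγ : γ ∈ levelG q m) : γ ∈ Gamma0 N := by
  obtain ⟨h1, h2⟩ := mem_levelG.mp hγ
  have h1' := (ZMod.intCast_zmod_eq_zero_iff_dvd _ _).mp (Gamma0_mem.mp h1)
  have h2' := (ZMod.intCast_zmod_eq_zero_iff_dvd _ _).mp (Gamma_mem.mp h2).2.2.1
  refine Gamma0_mem.mpr ((ZMod.intCast_zmod_eq_zero_iff_dvd _ _).mpr
    ((Int.natCast_dvd_natCast.mpr hN).trans ?_))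
  rw [Nat.cast_mul]
  exact IsCoprime.mul_dvd
    (Nat.isCoprime_iff_coprime.mpr (hq.coprime_iff_not_dvd.mpr hqm)) h1' h2'

variable {hζ : zetaQ M ∈ L}

/-- The Kummer function of a class in the field over the ramified base. -/
theorem exists_kummerFun (hq : q.Prime) (hqm : ¬ q ∣ m) (hM : M = q * m) (hN : N ∣ M)
    (χ : ParHom N (ZMod n))
    (hfix : ∀ s ∈ A.inertiaSubgroupIn ℚ, (∀ x ∈ L, s x = x) →
      (kummerGalois N n).galois s χ = χ) :
    ∃ (F : ℍ → ℂ) (b : bddMF (embR A L hζ)) (f : rTop A L hζ q m),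
      IsRepG (Gamma0 N) n χ F ∧ ((b : MF M) : ℍ → ℂ) = F ^ n ∧
        (f : Fld (embR A L hζ)) = toFld (embR A L hζ) b ∧ f ≠ 0 := by
  obtain ⟨F, hF⟩ := exists_isNormal_normalSeries χ
  have hR := repG_of_kummer hF.rep
  set φ : MF M := powMF ((isLevel_gamma0 N).of_dvd hN) hR with hφdef
  have hφ : (φ : ℍ → ℂ) = F ^ n := rfl
  have hser : serAlg M φ ∈ kSer (embR A L hζ).K := by
    rw [serAlg_of_rep_pow hF.series hφ]
    choose y hy hyC using exists_coeff_normalSeries (A := A) (L := L) hfix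
    have hg : normalSeries χ ∈ kSer (embR A L hζ).K :=
      mem_kSer.mpr fun i => (mem_embR_K hζ).mpr ⟨y i, hy i, hyC i⟩
    obtain ⟨g, hg'⟩ := pow_mem hg n
    exact ⟨GalRep.expand M (NeZero.ne M) g, by rw [← hg', lmap_expand]⟩
  set b : bddMF (embR A L hζ) := ⟨φ, bdd_of_kSer _ hser⟩
  have hb : toFld (embR A L hζ) b ∈ rTop A L hζ q m := by
    refine mem_rTop_iff.mpr fun g hg => ?_
    rw [fShift_toFld]
    refine congrArg _ (Subtype.ext (Subtype.ext (funext fun z => ?_)))
    rw [shift_apply]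
    show (φ : ℍ → ℂ) (g • z) = (φ : ℍ → ℂ) z
    rw [hφ]
    exact hR.isModFun_pow.invariant g (levelG_le_gamma0 hq hqm (hM ▸ hN) hg) z
  refine ⟨F, b, ⟨_, hb⟩, hR, hφ, rfl, fun h0 => hR.ne_zero (funext fun z => ?_)⟩
  have h1 : b = 0 := toFld_injective _ ((congrArg Subtype.val h0).trans (map_zero _).symm)
  have h2 := congrFun hφ z
  rw [show φ = 0 from congrArg Subtype.val h1] at h2
  exact (pow_eq_zero_iff (NeZero.ne n)).mp h2.symm

/-- Inertia sends the Kummer function of a class to that of its conjugate. -/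
theorem exists_conj_kummerFun (hMm : M = q * m) (hN : N ∣ M) {χ : ParHom N (ZMod n)} {F : ℍ → ℂ}
    {b : bddMF (embR A L hζ)} {f : rTop A L hζ q m} (hF : IsRepG (Gamma0 N) n χ F)
    (hb : ((b : MF M) : ℍ → ℂ) = F ^ n) (hf : (f : Fld (embR A L hζ)) = toFld (embR A L hζ) b)
    (σ : A.inertiaSubgroupIn ℚ) :
    ∃ (F' : ℍ → ℂ) (b' : bddMF (embR A L hζ)),
      IsRepG (Gamma0 N) n ((kummerGalois N n).galois (σ : GQ) χ) F' ∧
        ((b' : MF M) : ℍ → ℂ) = F' ^ n ∧
        (tauTop hζ hMm σ f : Fld (embR A L hζ)) = toFld (embR A L hζ) b' := by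
  obtain ⟨F', hF', hF'p⟩ := Semistable.exists_conj_rep hN (liftAut (σ : GQ)) hF (φ := (b : MF M)) hb
  refine ⟨F', conjB _ ⟨liftAut (σ : GQ), liftAut_mem_stabK hζ σ⟩ b, ?_, hF'p, ?_⟩
  · rw [(kummerGalois N n).galois_eq]
    exact hF'
  · rw [coe_tauTop, tauFld, hf, fConj_toFld]

end Fermat.Agent.GalRep.WildModel
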