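/-
A Kummer function of prime exponent `q` at level `Γ₀(q) ∩ Γ(m)` has `q`-th roots at the primes of
both charts which do not contain `q`: parabolicity gives the divisibility of its orders at the
cusps, where the ramification of the coordinate may be divisible by `q`.
-/
import Fermat.Agent.GalRep.WildModel.Classes
import Fermat.Agent.Models.Gamma0.Horizontal
import Fermat.Agent.Models.Gamma0.DeltaUnit
import Fermat.Agent.Models.Gamma0.TwoCharts
import Fermat.Agent.GalRep.InertiaBase.Exports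

set_option autoImplicit false
set_option linter.style.haveILetI false
set_option linter.unusedSectionVars false

noncomputable section

namespace Fermat.Agent.GalRep.WildModel

open UpperHalfPlane CongruenceSubgroup IsLocalRing ModularGroup
open Fermat.Agent.GalRep Fermat.Agent.GalRep.Level
open Fermat.Agent.ModField
open Fermat.Agent.GalRep.Model (chartRing)
open Fermat.Agent.Models (HasRootAt)
open Fermat.Agent.Mazur3 (uFun uFun_cases dSer dInvSer hasQSeries_dSer hasQSeries_dInvSer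
  lead_dSer lead_dInvSer Lead)
open scoped MatrixGroups Manifold

theorem order_of_lead {f : LaurentSeries ℂ} {a : ℤ} {x : ℂ} (h : Lead f a x) (hx : x ≠ 0) :
    f ≠ 0 ∧ f.order = a := by
  have hne : f.coeff a ≠ 0 := h.2 ▸ hx
  refine ⟨fun h0 => hne (by simp [h0]), le_antisymm (HahnSeries.order_le_of_coeff_ne_zero hne) ?_⟩
  by_contra hlt
  refine absurd (h.1 _ (not_le.mp hlt)) fun h0 => hne ?_
  rw [HahnSeries.coeff_order_eq_zero.mp h0]
  simp

/-- The width at a cusp over infinity of `Γ₀(q)` is prime to `q`. -/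
theorem conj_T_mem_gamma0 {N q m : ℕ} (hN : N ∣ q * m) {g : SL(2, ℤ)} (hg : (q : ℤ) ∣ g 1 0) :
    g * T ^ (m : ℤ) * g⁻¹ ∈ Gamma0 N := by
  refine Gamma0_mem.mpr ((ZMod.intCast_zmod_eq_zero_iff_dvd _ _).mpr
    ((Int.natCast_dvd_natCast.mpr hN).trans ?_))
  have h : (g * T ^ (m : ℤ) * g⁻¹ : SL(2, ℤ)) 1 0 = -((m : ℤ) * g 1 0 * g 1 0) := by
    rw [Matrix.SpecialLinearGroup.coe_mul, Matrix.SpecialLinearGroup.coe_mul, coe_T_zpow,
      Matrix.SpecialLinearGroup.coe_inv, Matrix.adjugate_fin_two]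
    simp [Matrix.mul_apply, Fin.sum_univ_two]
    ring
  rw [h, dvd_neg, Nat.cast_mul, mul_comm (q : ℤ)]
  exact (mul_dvd_mul_left _ hg).trans (dvd_mul_right _ _)

/-- The order of the unit at a cusp over zero of `Γ₀(q)`. -/
theorem order_serAlg_uM {M q m : ℕ} [NeZero M] [hq : Fact q.Prime] (hM : M = q * m) (hqM : q ∣ M)
    {δ : SL(2, ℤ)} (hδ : ¬ (q : ℤ) ∣ δ 1 0) :
    (serAlg M (shift M δ (uM q hqM))).order = m * (1 - (q : ℤ)) := by
  have hm : m ≠ 0 := fun h => NeZero.ne M (by rw [hM, h, mul_zero])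
  obtain ⟨b, h⟩ := (uFun_cases q δ).resolve_left fun h => hδ (by
    simpa [Gamma0_mem, ZMod.intCast_zmod_eq_zero_iff_dvd] using h.1)
  have h1 := ((hasQSeries_dSer.comp_upper one_pos b one_pos hq.out.pos).mul
    (hasQSeries_dInvSer.refine_width one_pos q hq.out.ne_zero)).refine_width
      (by rw [one_mul]; exact hq.out.pos) m hm
  rw [one_mul, ← hM] at h1
  have e := ((hasQSeries_serHom (shift M δ (uM q hqM))).congr (.of_forall fun τ => by
    show uFun q (δ • τ) = _
    rw [h τ]; simp only [Pi.mul_apply]; ring)).unique (NeZero.pos M) h1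
  have hd := order_of_lead lead_dSer one_ne_zero
  have hi := order_of_lead lead_dInvSer one_ne_zero
  rw [show serAlg M (shift M δ (uM q hqM)) = _ from e, order_expand,
    HahnSeries.order_mul (expand_ne_zero one_ne_zero ((map_ne_zero _).mpr hd.1))
      (expand_ne_zero hq.out.ne_zero hi.1), order_expand, order_expand, order_twist, hd.2, hi.2]
  push_cast
  ring

variable {O : Type} [CommRing O] [IsDomain O] [IsDiscreteValuationRing O] {W : Type} [CommRing W]
  [IsDomain W] [IsNoetherianRing W] [Algebra W O] [Module.Finite W O] [FaithfulSMul W O]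
  {M : ℕ} [NeZero M] {E : Emb O M} [Algebra W (Fld E)] [IsScalarTower W O (Fld E)]
  {q m N : ℕ} [hq : Fact q.Prime]

/-- A Kummer function of exponent `q` has roots at the horizontal primes of both charts. -/
theorem hasRootAt_kummer (h5 : 5 ≤ q) (hqm : ¬ q ∣ m) (hM : M = q * m) (hN : N ∣ M)
    (hqO : (q : O) ∈ maximalIdeal O) {χ : ParG (Gamma0 N) (ZMod q)} {F : ℍ → ℂ}
    (hF : IsRepG (Gamma0 N) q χ F) {b : bddMF E} (hb : ((b : MF M) : ℍ → ℂ) = F ^ q)
    {x : Fld₀ W E q m} (hx : x ≠ 0) (hxb : (x : Fld E) = toFld E b) {w : Fld₀ W E q m}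
    (hw : w = jF₀ W E q m ∨ w = (jF₀ W E q m)⁻¹) (Q : Ideal (chartRing W w)) [Q.IsPrime]
    (hQ0 : Q ≠ ⊥) (hQq : algebraMap W (chartRing W w) (q : W) ∉ Q) :
    HasRootAt (chartRing W w) q x Q := by
  have hp : Prime (q : ℤ) := Nat.prime_iff_prime_int.mp hq.out
  have hqm' : ¬ (q : ℤ) ∣ m := fun h => hqm (Int.natCast_dvd_natCast.mp h)
  have hlev : IsLevel M (Gamma0 N) := (isLevel_gamma0 N).of_dvd hN
  have hpow : IsPowFun q (b : MF M) := isPowFun_of_rep hF hlev hb
  have hint : ∀ {ψ : ℂ → ℂ} (hψ : AnalyticAt ℂ ψ 0) (h0 : ψ 0 ∈ upperHalfPlaneSet)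
      (hd : deriv ψ 0 ≠ 0) (g : SL(2, ℤ)) (k : ℤ), k ∣ ((6 : ℕ) : ℤ) →
      ∀ i : ℤ, (locEmb hψ h0 hd E (fShift E g (x : Fld E))).order = i * k → (q : ℤ) ∣ i := by
    intro ψ hψ h0 hd g k hk i hi
    refine (hp.dvd_or_dvd (?_ : (q : ℤ) ∣ i * k)).resolve_right fun h => ?_
    · rw [← hi, hxb]
      exact dvd_order_locEmb hψ h0 hd hpow g
    · have h6 := Nat.le_of_dvd (by norm_num) (Int.natCast_dvd_natCast.mp (h.trans hk))
      have := Int.natCast_dvd_natCast.mp (h.trans hk)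
      interval_cases q
      all_goals norm_num at *
  rcases hw with rfl | rfl
  · refine hasRootAt_of_valuation (w := jF₀ W E q m) (fun g => by rw [coe_jF₀, fShift_jF])
      (by rw [coe_jF₀]; exact aeval_jF_injective E)
      (by rw [coe_jF₀]; exact fixedRational_jF E) hqO Q hQ0 hQq hx fun c => ?_
    rw [coe_jF₀]
    obtain ⟨ψ, hψ, h0, hd, hC⟩ := centred_jF (E := E) c (dvd_refl 6)
    exact ⟨_, 6, hC, fun g k _ hk _ i hi => hint hψ h0 hd g k hk i hi⟩
  · refine hasRootAt_of_valuation (w := (jF₀ W E q m)⁻¹)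
      (fun g => by rw [coe_inv_jF₀, map_inv₀, fShift_jF])
      (by rw [coe_inv_jF₀]; exact aeval_inv_jF_injective E)
      (by rw [coe_inv_jF₀]; exact fixedRational_inv_jF E) hqO Q hQ0 hQq hx fun c => ?_
    rw [coe_inv_jF₀]
    rcases eq_or_ne c 0 with rfl | hc
    swap
    · obtain ⟨ψ, hψ, h0, hd, hC⟩ := centred_inv_jF (E := E) hc (dvd_refl 6)
      exact ⟨_, 6, hC, fun g k _ hk _ i hi => hint hψ h0 hd g k hk i hi⟩
    refine ⟨_, M, centred_toLS (dvd_refl M), fun g k hk0 hk hall i hi => ?_⟩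
    obtain ⟨h, hh, -⟩ := hF.exists_series hlev g
    have hord : (toLS E (fShift E g (x : Fld E))).order = q * h.order := by
      rw [hxb, fShift_toFld, toLS_toFld, show serAlg M (shift M g (b : MF M)) = h ^ q from
        serAlg_shift_eq (by rw [hb]; exact hh.pow q), HahnSeries.order_pow, nsmul_eq_mul]
    by_cases hg : (q : ℤ) ∣ g 1 0
    · -- the width of the cusp is `m`
      haveI : NeZero m := ⟨fun h0 => hqm (h0 ▸ dvd_zero q)⟩
      obtain ⟨h', hh'⟩ := exists_hasQSeries_of_periodic (N := m)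
        (mdifferentiable_comp_smul hF.holo g)
        (fun τ => by simpa using hF.periodic g m (conj_T_mem_gamma0 (hM ▸ hN) hg) τ)
        (NeZero.pos M) hh
      have h1 := hh'.refine_width (NeZero.pos m) q hq.out.ne_zero
      rw [mul_comm m q, ← hM] at h1
      rw [hord, hh.unique (NeZero.pos M) h1, order_expand] at hi
      obtain ⟨l, hl⟩ := hk
      rw [hM, Nat.cast_mul] at hl
      refine (hp.dvd_or_dvd (?_ : (q : ℤ) ∣ i * m)).resolve_right hqm'
      refine ⟨h'.order * l, mul_left_cancel₀ hp.ne_zero ?_⟩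
      calc (q : ℤ) * (i * m) = i * (k * l) := by rw [← hl]; ring
        _ = (i * k) * l := by ring
        _ = _ := by rw [← hi]; ring
    · -- some unit has order prime to `q`
      have hu := hall (uF₀ W (⟨m, hM⟩ : q ∣ M) m)
      rw [show ((uF₀ W (⟨m, hM⟩ : q ∣ M) m : Fld₀ W E q m) : Fld E) = uF E q ⟨m, hM⟩ from rfl, uF,
        fShift_toFld, toLS_toFld, order_serAlg_uM hM _ hg] at hu
      obtain ⟨l, hl⟩ := hu
      refine (hp.dvd_or_dvd (?_ : (q : ℤ) ∣ i * (m * (1 - (q : ℤ))))).resolve_right fun h => ?_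
      · rw [hl, ← mul_assoc, ← hi, hord]
        exact (dvd_mul_right _ _).mul_right _
      · rcases hp.dvd_or_dvd h with h | h
        · exact hqm' h
        · exact hp.not_dvd_one (by simpa using dvd_add h (dvd_refl (q : ℤ)))

section Model

open Fermat.Agent.GalRep.InertiaBase

variable {A : ValuationSubring (AlgebraicClosure ℚ)} {L : IntermediateField ℚ (AlgebraicClosure ℚ)}
  [FiniteDimensional ℚ L] [Normal ℚ L] {M q m N : ℕ} [NeZero M] [Fact q.Prime]
  {hζ : Fermat.Agent.NewVec.zetaQ M ∈ L}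

/-- A Kummer function has roots off the special fibre of both charts over the ramified base. -/
theorem off_roots_kummer [IsDiscreteValuationRing (rBase A L)] (hq : q.Prime)
    (hA : A.LiesOverPrime q) (h5 : 5 ≤ q) (hqm : ¬ q ∣ m) (hM : M = q * m) (hN : N ∣ M)
    {χ : ParG (Gamma0 N) (ZMod q)} {F : ℍ → ℂ} (hF : IsRepG (Gamma0 N) q χ F)
    {b : bddMF (embR A L hζ)} (hb : ((b : MF M) : ℍ → ℂ) = F ^ q) {f : rTop A L hζ q m}
    (hf : f ≠ 0) (hfb : (f : Fld (embR A L hζ)) = toFld (embR A L hζ) b) :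
    (∀ Q : Ideal (model₀ (rBase A L) (embR A L hζ) q m).B₀, Q.IsPrime → Q ≠ ⊥ →
        algebraMap (rBase A L) _ (rUnif hq hA) ∉ Q → HasRootAt _ q f Q) ∧
      ∀ Q : Ideal (model₀ (rBase A L) (embR A L hζ) q m).B₁, Q.IsPrime → Q ≠ ⊥ →
        algebraMap (rBase A L) _ (rUnif hq hA) ∉ Q → HasRootAt _ q f Q := by
  obtain ⟨u, hu⟩ := exists_unit (A := A) (L := L) hq hA
  rw [map_natCast] at hu
  have hqO : (q : rBase A L) ∈ maximalIdeal (rBase A L) := by
    rw [IsLocalRing.mem_maximalIdeal]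
    exact fun h => (rBase_dvr (A := A) (L := L) hq hA).2.2.not_isUnit
      ((isUnit_pow_iff (rIdx_pos hq hA).ne').mp (hu ▸ h.mul u.isUnit))
  have key : ∀ w : rTop A L hζ q m, (w = jF₀ _ _ q m ∨ w = (jF₀ _ _ q m)⁻¹) →
      ∀ Q : Ideal (chartRing (rBase A L) w), Q.IsPrime → Q ≠ ⊥ →
        algebraMap (rBase A L) _ (rUnif hq hA) ∉ Q → HasRootAt _ q f Q := by
    intro w hw Q hQ hQ0 hπ
    refine hasRootAt_kummer h5 hqm hM hN hqO hF hb hf hfb hw Q hQ0 fun h => hπ (hQ.mem_of_pow_mem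
      (rIdx (L := L) hq hA) ?_)
    rw [← map_pow, hu, map_mul]
    exact Q.mul_mem_right _ h
  exact ⟨key _ (Or.inl rfl), key _ (Or.inr rfl)⟩

end Model

end Fermat.Agent.GalRep.WildModel
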