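/-
The transfer of the Kummer function of an eigenclass is a power of it, up to a constant and a
power.
-/
import Fermat.Agent.GalRep.Semistable.Killer
import Fermat.Agent.GalRep.WildModel.Roots
import Fermat.Agent.Models.Gamma0.TransferSeries

set_option autoImplicit false
set_option linter.style.haveILetI false
set_option linter.unusedSectionVars false

noncomputable section

namespace Fermat.Agent.GalRep.WildModel

open UpperHalfPlane CongruenceSubgroup
open Fermat.Agent.GalRep Fermat.Agent.GalRep.Level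
open Fermat.Agent.ModField
open Fermat.Agent.NewVec (exists_rep_eq kSer_of_pow)
open scoped MatrixGroups Manifold

variable {O : Type} [CommRing O] [IsDomain O] [IsDiscreteValuationRing O] {M : ℕ} [NeZero M]
  {E : Emb O M} {N p q m ℓ : ℕ} [NeZero N] [NeZero ℓ] [hp : Fact p.Prime]

set_option maxHeartbeats 800000 in
/-- The transfer of an eigenclass in the descended field. -/
theorem exists_transfer_eq (hqM : q ∣ M) (hmM : m ∣ M) (hbase : baseK O E = E.K)
    (hlev : levelG q m ≤ Gamma0 N) (hg : GoodIndex N ℓ) (hℓM : (ℓ : ZMod M) = 1)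
    (hz : (zetaU ℓ : ℂ) ∈ E.K) {χ : ParHom N (ZMod p)} {a : ZMod p}
    (heig : heckeHom hg χ = a • χ) {F : ℍ → ℂ} (hF : IsRepG (Gamma0 N) p χ F) {b : bddMF E}
    (hb : ((b : MF M) : ℍ → ℂ) = F ^ p) {f : Fld₀ O E q m} (hf : (f : Fld E) = toFld E b) :
    ∃ (g H : Fld₀ O E q m) (c₁ c₂ : O), c₁ ≠ 0 ∧ c₂ ≠ 0 ∧ H ≠ 0 ∧
      GalRep.expand ℓ (NeZero.ne ℓ) (toLS E (g : Fld E)) =
        ∏ i, conjSer ℓ i (toLS E (f : Fld E)) ∧
      algebraMap O (Fld₀ O E q m) c₁ * g =
        algebraMap O (Fld₀ O E q m) c₂ * (f ^ a.val * H ^ p) := by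
  classical
  have hℓ := hg.prime
  have hd : ∀ i, 0 < (heckeRepG M ℓ 1 i).det := fun i => by
    rw [det_heckeRepG]; exact_mod_cast hℓ.pos
  set φ : MF M := (b : MF M)
  have hφG : ∀ g ∈ levelG q m, shift M g φ = φ := fun g hg => by
    refine Subtype.ext (funext fun τ => ?_)
    show (φ : ℍ → ℂ) (g • τ) = (φ : ℍ → ℂ) τ
    rw [hb]
    exact hF.isModFun_pow.invariant g (hlev hg) τ
  obtain ⟨ψ, hψK, hψG, hψser, hψT⟩ :=
    exists_transfer_mf hℓ hℓM hqM hmM hz (kSer_of_bdd E b.2) hφG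
  -- the transfer of the representative
  have hcop : Nat.Coprime M ℓ := by
    refine ((hℓ.coprime_iff_not_dvd).mpr fun hd => ?_).symm
    have h1 := congrArg (ZMod.castHom hd (ZMod ℓ)) hℓM
    rw [map_natCast, map_one, ZMod.natCast_self] at h1
    haveI := Fact.mk hℓ
    exact zero_ne_one h1
  obtain ⟨σ, t, hσ⟩ := exists_rep_eq (k := M) hcop
  set T := transferProd (heckeRep ℓ) (det_heckeRep_pos hg) F
  have hT : (ψ : ℍ → ℂ) = T ^ p := by
    rw [hψT]
    funext τ
    simp only [T, transferProd, Finset.prod_apply, Pi.pow_apply, ← Finset.prod_pow]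
    refine Fintype.prod_equiv σ _ _ fun i => ?_
    have hmat : heckeRepG M ℓ 1 i * ((1 : SL(2, ℤ)) : Matrix (Fin 2) (Fin 2) ℤ) =
        ((ModularGroup.T ^ t i : SL(2, ℤ)) : Matrix (Fin 2) (Fin 2) ℤ) * heckeRep ℓ (σ i) := by
      rw [Matrix.SpecialLinearGroup.coe_one, mul_one, hσ]
    have e := posMat_smul_eq (hd i) (det_heckeRep_pos hg (σ i)) 1 (ModularGroup.T ^ t i) hmat τ
    rw [one_smul] at e
    rw [e, hb, Pi.pow_apply]
    congr 1
    exact hF.smul_eq_of_trace ⟨ModularGroup.T ^ t i, Gamma0_mem.mpr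
      (by simp [ModularGroup.coe_T_zpow])⟩ (by
        simp [ModularGroup.coe_T_zpow, Matrix.trace_fin_two]) _
  have hA : a.val ≤ p := (ZMod.val_lt a).le
  have hTrep : IsRepG (Gamma0 N) p (heckeHom hg χ) T := Semistable.rep_heckeHom hg hF
  have hrep : IsRepG (Gamma0 N) p (0 : ParG (Gamma0 N) (ZMod p)) (T * F ^ (p - a.val)) := by
    have h1 := hTrep.mul (hF.pow (p - a.val))
    have e0 : heckeHom hg χ + (p - a.val) • χ = 0 := by
      rw [heig]
      refine Subtype.ext (AddMonoidHom.ext fun x => ?_)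
      show a * (χ : Additive (Gamma0 N) →+ ZMod p) x +
        (((p - a.val) • χ : ParG (Gamma0 N) (ZMod p)) : Additive (Gamma0 N) →+ ZMod p) x = 0
      rw [Submodule.coe_smul_of_tower, AddMonoidHom.nsmul_apply, nsmul_eq_mul, Nat.cast_sub hA,
        ZMod.natCast_self, ZMod.natCast_zmod_val]
      ring
    rwa [e0] at h1
  -- the normalised root
  let θ : MF M := ⟨T * F ^ (p - a.val), modFuns_anti
    ((gamma_le_levelG hqM hmM).trans hlev) hrep.isModFun⟩
  have hθ : θ ^ p = ψ * φ ^ (p - a.val) := by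
    refine Subtype.ext (funext fun τ => ?_)
    simp only [SubmonoidClass.coe_pow, MulMemClass.coe_mul, Pi.pow_apply, Pi.mul_apply, hT, θ]
    rw [show ((φ : MF M) : ℍ → ℂ) τ = F τ ^ p from congrFun hb τ]
    ring
  set s := serAlg M θ with hs
  have hs0 : s ≠ 0 := fun h0 =>
    hrep.ne_zero (congrArg Subtype.val (serAlg_injective M (h0.trans (map_zero _).symm)))
  have hsK : s ^ p ∈ kSer E.K := by
    rw [hs, ← map_pow, hθ, map_mul, map_pow]
    exact mul_mem hψK (pow_mem (kSer_of_bdd E b.2) _)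
  set e := s.coeff s.order with he
  have he0 : e ≠ 0 := HahnSeries.coeff_order_eq_zero.not.mpr hs0
  have heK : e ^ p ∈ E.K := by
    have hl : ∀ k : ℕ, (s ^ k).leadingCoeff = e ^ k := fun k => by
      induction k with
      | zero => simp
      | succ k ih => rw [pow_succ, HahnSeries.leadingCoeff_mul, ih, HahnSeries.leadingCoeff_eq,
          pow_succ]
    rw [← hl, HahnSeries.leadingCoeff_eq]
    exact mem_kSer.mp hsK _
  set s' := HahnSeries.C e⁻¹ * s with hs'
  have hCne : (HahnSeries.C e⁻¹ : LaurentSeries ℂ) ≠ 0 := by simp [he0]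
  have hord : s'.order = s.order := by
    rw [hs', HahnSeries.order_mul hCne hs0, HahnSeries.C_apply,
      HahnSeries.order_single (inv_ne_zero he0), zero_add]
  have hlead : s'.coeff s'.order = 1 := by
    rw [hord, hs', HahnSeries.C_mul_eq_smul, HahnSeries.coeff_smul, smul_eq_mul, ← he,
      inv_mul_cancel₀ he0]
  have hpow : s' ^ p ∈ kSer E.K := by
    rw [hs', mul_pow, ← map_pow, inv_pow]
    refine mul_mem (mem_kSer.mpr fun i => ?_) hsK
    rw [HahnSeries.C_apply, HahnSeries.coeff_single]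
    split_ifs
    · exact inv_mem heK
    · exact zero_mem _
  let θ' : MF M := algebraMap ℂ (MF M) e⁻¹ * θ
  have hθ's : serAlg M θ' = s' := by
    rw [map_mul, AlgHom.commutes, hs', HahnSeries.algebraMap_apply']
    simp [hs]
  have hθ'K : serAlg M θ' ∈ kSer E.K :=
    hθ's ▸ kSer_of_pow _ hp.out.pos (mul_ne_zero hCne hs0) hlead hpow
  have hmem : ∀ (η : MF M) (hK : serAlg M η ∈ kSer E.K),
      (∀ g ∈ levelG q m, shift M g η = η) → ofMF E η hK ∈ Fld₀ O E q m := by
    intro η hK hG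
    refine mem_levelFld.mpr ⟨fun g hg => ?_, ?_⟩
    · rw [ofMF, fShift_toFld]
      exact congrArg _ (Subtype.ext (hG g hg))
    · rw [ofMF, toLS_toFld, hbase]; exact hK
  have hθ'G : ∀ g ∈ levelG q m, shift M g θ' = θ' := fun g hg => by
    rw [map_mul, AlgHom.commutes]
    congr 1
    exact Subtype.ext (funext fun τ => hrep.isModFun.invariant g (hlev hg) τ)
  let K : Fld₀ O E q m := ⟨_, hmem θ' hθ'K hθ'G⟩
  let G : Fld₀ O E q m := ⟨_, hmem ψ hψK hψG⟩
  have hGser : toLS E (G : Fld E) = serAlg M ψ := by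
    show toLS E (ofMF E ψ hψK) = _
    rw [ofMF, toLS_toFld]
  have hKser : toLS E (K : Fld E) = s' := by
    show toLS E (ofMF E θ' hθ'K) = _
    rw [ofMF, toLS_toFld]
    exact hθ's
  have hfser : toLS E (f : Fld E) = serAlg M φ := by rw [hf, toLS_toFld]
  have hb0 : f ≠ 0 := fun h0 => by
    have h1 : φ = 0 := serAlg_injective M (by
      rw [← hfser, h0, map_zero]; exact map_zero (toLS E))
    refine hF.ne_zero (funext fun τ => (pow_eq_zero_iff hp.out.ne_zero).mp ?_)
    rw [← Pi.pow_apply, ← hb, show ((b : MF M) : ℍ → ℂ) = ((φ : MF M) : ℍ → ℂ) from rfl, h1]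
    rfl
  obtain ⟨c₂, c₁, hc₁, hce⟩ := exists_frac_of_mem E heK
  have hc₂ : c₂ ≠ 0 := fun h0 => pow_ne_zero p he0 (by rw [hce, h0, map_zero, zero_div])
  have hK0 : K ≠ 0 := fun h0 => mul_ne_zero hCne hs0 (by
    rw [← hs', ← hKser, h0]; exact map_zero (toLS E))
  refine ⟨G, K / f, c₁, c₂, hc₁, hc₂, div_ne_zero hK0 hb0, by rw [hGser, hfser, hψser], ?_⟩
  have hkey : algebraMap O (Fld₀ O E q m) c₁ * (G * f ^ (p - a.val)) =
      algebraMap O (Fld₀ O E q m) c₂ * K ^ p := by
    refine Subtype.ext (toLS_injective E ?_)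
    simp only [Subfield.coe_mul, SubmonoidClass.coe_pow, map_mul, map_pow, coe_algebraMap_fld₀,
      toLS_algebraMap, hGser, hKser, hfser]
    rw [← map_pow (serAlg M) φ, ← map_mul (serAlg M), ← hθ, map_pow (serAlg M), ← hs, hs', mul_pow,
      ← map_pow HahnSeries.C, ← mul_assoc, ← map_mul HahnSeries.C]
    congr 2
    rw [inv_pow, hce, inv_div, mul_div_cancel₀ _ ((map_ne_zero_iff _ E.inj).mpr hc₂)]
  refine mul_right_cancel₀ (pow_ne_zero (p - a.val) hb0) ?_
  rw [mul_assoc, hkey, mul_assoc, mul_right_comm (f ^ a.val), ← pow_add, Nat.add_sub_cancel' hA,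
    ← mul_pow, mul_div_cancel₀ _ hb0]

end Fermat.Agent.GalRep.WildModel
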