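/-
The unit `u = q¹² Δ(qτ)/Δ(τ)` on the wild model at a place.
-/
import Fermat.Agent.Models.Gamma0.NodeUnit
import Fermat.Agent.GalRep.WildModel.Base

set_option autoImplicit false
set_option linter.style.haveILetI false
set_option linter.unusedSectionVars false

noncomputable section

namespace Fermat.Agent.GalRep.WildModel

open IsLocalRing
open Fermat.Agent.ModField
open Fermat.Agent.NewVec
open Fermat.Agent.GalRep.InertiaBase
open Fermat.Agent.GalRep.Semistable
open Fermat.Agent.Models (IsNodeParam)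

local notation "Qb" => AlgebraicClosure ℚ

variable {A : ValuationSubring (AlgebraicClosure ℚ)} {L : IntermediateField ℚ (AlgebraicClosure ℚ)}
  [FiniteDimensional ℚ L] [Normal ℚ L] {q m : ℕ} [NeZero (q * m)]

/-- The unit with exponent `-12` at the nodes of the wild model. -/
theorem exists_nodeUnit (hq : q.Prime) (hA : A.LiesOverPrime q) (hqm : ¬ q ∣ m)
    (hζ : zetaQ (q * m) ∈ L) (hcharts : ChartsSemi A q m) [IsDiscreteValuationRing (rBase A L)]
    [Fact q.Prime] :
    ∃ (u v : (model₀ (rBase A L) (embR A L hζ) q m).B₀) (N : ℕ) (c₀ : (rBase A L)ˣ),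
      ((u : Fld₀ (rBase A L) (embR A L hζ) q m) : Fld (embR A L hζ)) =
        uF (embR A L hζ) q (dvd_mul_right q m) ∧
      u * v = algebraMap (rBase A L) (model₀ (rBase A L) (embR A L hζ) q m).B₀
        ((c₀ : rBase A L) * rUnif hq hA ^ N) ∧
      ∀ (mm : Ideal (model₀ (rBase A L) (embR A L hζ) q m).B₀)
        (x y w : (model₀ (rBase A L) (embR A L hζ) q m).B₀), mm.IsMaximal →
        IsNodeParam (model₀ (rBase A L) (embR A L hζ) q m).B₀ (rUnif hq hA)
          (twoP (rBase A L) (embR A L hζ) q m (irreducible_rUnif hq hA)) (rIdx (L := L) hq hA)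
          (algebraMap (wTop A (q * m) q m) (rTop A L hζ q m)).fieldRange mm x y w →
        ∃ c d : (model₀ (rBase A L) (embR A L hζ) q m).B₀, c ∉ mm ∧ d ∉ mm ∧
          c * u * x ^ 12 = d * algebraMap (rBase A L) (model₀ (rBase A L) (embR A L hζ) q m).B₀
            (rUnif hq hA) ^ (12 * rIdx (L := L) hq hA) := by
  have hW := wBase_props A hq hA
  haveI := hW.1
  haveI := hW.2.2
  have hqW := hW.2.1
  haveI : NeZero m := ⟨fun h => NeZero.ne (q * m) (by rw [h, mul_zero])⟩
  haveI := (oBase_dvr (A := A) (M := q * m) hq hA rfl hqm).1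
  haveI := finite_oBase (A := A) (M := q * m) hq hA rfl hqm
  haveI := isAlgClosed_rBase (L := L) hq hA
  exact ModField.exists_nodeUnit hqW (dvd_mul_right q m) (dvd_mul_left m q) hqm hcharts.1
    (fun x => toLS_algebraMap_top x) (embO_K_le hζ) (embO_value hζ)
    (totRam (hζ := hζ) rfl hq hA) rfl (irreducible_rUnif hq hA)

end Fermat.Agent.GalRep.WildModel
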