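/-
On the wild model a constant exponent of an eigen Kummer function vanishes: multiplied by the
matching power of `q¹² Δ(qτ)/Δ(τ)` it has roots everywhere on the finite chart, so does its
transfer, and the eigenvalue at `ℓ` is not `ℓ + 1`.
-/
import Fermat.Agent.GalRep.WildModel.EigenTransfer
import Fermat.Agent.GalRep.WildModel.NodeUnit
import Fermat.Agent.GalRep.WildModel.OffRoots
import Fermat.Agent.Models.Gamma0.TransferUnit
import Fermat.Agent.Models.Wild.GapA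
import Fermat.Agent.Models.Wild.UnitForm

set_option autoImplicit false
set_option linter.style.haveILetI false
set_option linter.unusedSectionVars false

noncomputable section

namespace Fermat.Agent.GalRep.WildModel

open UpperHalfPlane CongruenceSubgroup IsLocalRing
open Fermat.Agent.GalRep Fermat.Agent.GalRep.Level
open Fermat.Agent.ModField
open Fermat.Agent.NewVec (zetaQ root_mem_inertiaFld map_zetaQ isPrimitiveRoot_zetaQ inertiaFld)
open Fermat.Agent.GalRep.InertiaBase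
open Fermat.Agent.GalRep.Semistable (ChartsSemi)
open Fermat.Agent.Models (ExpEq HasRootAt)
open scoped MatrixGroups

variable {A : ValuationSubring (AlgebraicClosure ℚ)} {L : IntermediateField ℚ (AlgebraicClosure ℚ)}
  [FiniteDimensional ℚ L] [Normal ℚ L]

/-- The roots of unity of order prime to the residue characteristic in the ramified base. -/
theorem exists_rBase_zeta {q M : ℕ} [NeZero M] (hζ : zetaQ M ∈ L) (hq : q.Prime)
    (hA : A.LiesOverPrime q) {ℓ : ℕ} [NeZero ℓ] (hℓ : ¬ q ∣ ℓ) :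
    ∃ z : rBase A L, (embR A L hζ).φ z = (zetaU ℓ : ℂ) ∧ IsUnit z := by
  have hpow := (isPrimitiveRoot_zetaQ ℓ).pow_eq_one
  have hmem : zetaQ ℓ ∈ rFld A L :=
    inertia_mem_rFld A L ⟨_, root_mem_inertiaFld A hq hA hℓ hpow⟩
  have hA1 : zetaQ ℓ ∈ A := by
    refine (A.valuation_le_one_iff _).mp (le_of_eq ?_)
    refine (pow_eq_one_iff_of_nonneg zero_le (NeZero.ne ℓ)).mp ?_
    rw [← map_pow, hpow, map_one]
  let z : rBase A L := ⟨⟨_, hmem⟩, hA1⟩
  refine ⟨z, ?_, IsUnit.of_pow_eq_one (n := ℓ) (rVal_injective A L ?_) (NeZero.ne ℓ)⟩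
  · rw [embR_φ]
    show qbarToC (zetaQ ℓ) = _
    rw [map_zetaQ]
    rfl
  · rw [map_pow, map_one]
    exact hpow

/-- Only the class of the exponent matters. -/
theorem expEq_of_dvd {O F : Type} [CommRing O] [Field F] [Algebra O F] {B : Subalgebra O F} {π : O}
    {P : Bool → ValuationSubring F} {e : ℕ} {F₀ : Subfield F} {p : ℕ} {f : F} {s : ℕ}
    (hs : ExpEq B π P e F₀ p f s) (hd : p ∣ s) : ExpEq B π P e F₀ p f 0 := fun m x y u hm hn => by
  obtain ⟨z, c, d, i, j, hc, hd', hi, he⟩ := hs m x y u hm hn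
  exact ⟨z, c, d, i, j, hc, hd', by rw [hi, Nat.mod_eq_zero_of_dvd hd, Nat.zero_mod], he⟩

section Level

variable {O : Type} [CommRing O] [IsDomain O] [IsDiscreteValuationRing O] {M : ℕ} [NeZero M]
  {E : Emb O M} {q m : ℕ} [hq' : Fact q.Prime] {π : O} {e : ℕ}
  {F₀ : Subfield (Fld₀ O E q m)}

local notation "F₁" => Fld₀ O E q m
set_option quotPrecheck false in
local notation "Bl" => (model₀ O E q m).B₀
local notation "al" => algebraMap O (Fld₀ O E q m)

set_option maxHeartbeats 800000 in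
/-- The exponent bound on a level model, given the transfer identity. -/
theorem dvd_exponent_level (h5 : 5 ≤ q) (hπ : Irreducible π)
    (h : Models.IsWildModel (model₀ O E q m) π (twoP O E q m hπ) e q F₀)
    (hqM : q ∣ M) (hmM : m ∣ M) (hbase : baseK O E = E.K) {ℓ : ℕ} [NeZero ℓ] [Fact ℓ.Prime]
    (hl : (ℓ : ZMod M) = 1) {z : O} (hz : E.φ z = (zetaU ℓ : ℂ)) (hzu : IsUnit z)
    {f : Fld₀ O E q m} (hf0 : f ≠ 0)
    (hoff : ∀ Q : Ideal (model₀ O E q m).B₀, Q.IsPrime → Q ≠ ⊥ →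
      algebraMap O (model₀ O E q m).B₀ π ∉ Q → HasRootAt (model₀ O E q m).B₀ q f Q)
    {s : ℕ} (hs : ExpEq (model₀ O E q m).B₀ π (twoP O E q m hπ) e F₀ q f s)
    {u v : (model₀ O E q m).B₀} {N' : ℕ} {c₀ : Oˣ}
    (huc : ((u : F₁) : Fld E) = uF E q hqM)
    (huv : u * v = algebraMap O (model₀ O E q m).B₀ ((c₀ : O) * π ^ N'))
    (hu : ∀ (mm : Ideal (model₀ O E q m).B₀) (x y w : (model₀ O E q m).B₀), mm.IsMaximal →
      Models.IsNodeParam (model₀ O E q m).B₀ π (twoP O E q m hπ) e F₀ mm x y w →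
      ∃ c d : (model₀ O E q m).B₀, c ∉ mm ∧ d ∉ mm ∧
        c * u * x ^ 12 = d * algebraMap O (model₀ O E q m).B₀ π ^ (12 * e))
    {a : ZMod q} (ha : a ≠ (ℓ : ZMod q) + 1) {g H : Fld₀ O E q m} {c₁ c₂ : O} (hc₁ : c₁ ≠ 0)
    (hc₂ : c₂ ≠ 0) (hH : H ≠ 0)
    (hgser : GalRep.expand ℓ (NeZero.ne ℓ) (toLS E (g : Fld E)) =
      ∏ i, conjSer ℓ i (toLS E (f : Fld E)))
    (hgeq : algebraMap O (Fld₀ O E q m) c₁ * g =
      algebraMap O (Fld₀ O E q m) c₂ * (f ^ a.val * H ^ q)) : q ∣ s := by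
  have hq : q.Prime := hq'.out
  have hzK : (zetaU ℓ : ℂ) ∈ E.K := hz ▸ E.φ_mem z
  obtain ⟨t, ht⟩ := h.exists_roots_mul_unit hf0 hoff hs huv hu
  obtain ⟨X, Y, hXB, hYB, hXY, hXU, hYU, hXser⟩ := exists_unit_transfer (O := O)
    (E := E) (q := q) (m := m) (π := π) hl hqM hmM hbase hπ hz hzu
  have huu : (u : Fld₀ O E q m) = uF₀ O hqM m := Subtype.ext huc
  -- the transfer has roots
  have hT : ∀ Q : Ideal Bl, Q.IsMaximal →
      HasRootAt Bl q ((al π ^ t) ^ (ℓ + 1) * (g ^ 12 * X ^ s)) Q := by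
    intro Q hQ
    refine hasRootAt_hecke (ℓ := ℓ) hl hqM hmM hzK hbase hq.pos
      (f := al π ^ t * (f ^ 12 * (u : Fld₀ O E q m) ^ s)) ?_ ?_ ht hQ
    · refine mul_ne_zero (pow_ne_zero _ h.pi_ne_zero) (mul_ne_zero (pow_ne_zero _ hf0)
        (pow_ne_zero _ ?_))
      rw [huu]
      exact fun h0 => uF_ne_zero hqM (congrArg Subtype.val h0)
    · rw [huu]
      have hC : ∀ (i : Option (Fin ℓ)), conjSer ℓ i (toLS E
          ((al π : Fld₀ O E q m) : Fld E)) =
          GalRep.expand ℓ (NeZero.ne ℓ) (toLS E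
            ((al π : Fld₀ O E q m) : Fld E)) := fun i => by
        simp only [coe_algebraMap_fld₀, toLS_algebraMap, conjSer_C]
        rw [HahnSeries.C_apply, expand_single', mul_zero]
      simp only [Subfield.coe_mul, SubmonoidClass.coe_pow, map_mul, map_pow, hgser, hXser, hC,
        Finset.prod_mul_distrib, Finset.prod_pow, Finset.prod_const, Finset.card_univ,
        Fintype.card_option, Fintype.card_fin]
      rw [← pow_mul, ← pow_mul, mul_comm t]
  -- the exponent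
  have hcX : ∀ (mm : Ideal Bl) (x y w : Bl), mm.IsMaximal →
      Models.IsNodeParam Bl π
        (twoP O E q m hπ) e
        F₀ mm x y w →
      ∃ c d : Bl, c ∉ mm ∧ d ∉ mm ∧ c * (⟨X, hXB⟩ : Bl) * x ^ (12 * (ℓ + 1)) =
        d * algebraMap O Bl π ^ (12 * (ℓ + 1) * e) := by
    intro mm x y w hmm hn
    obtain ⟨cq, hcq⟩ := h.natCast_eq
    refine h.exists_unit_form h.chart₀ (u := ⟨X, hXB⟩) (v := ⟨Y, hYB⟩)
      (c₀ := cq ^ (12 * (ℓ + 1))) ?_ hXU hYU hmm hn
    refine Subtype.ext ?_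
    show X * Y = al _
    rw [hXY, ← map_natCast al, ← map_pow, hcq, mul_pow, ← pow_mul, Units.val_pow_eq_pow_val,
      mul_comm e]
  have hdvd := h.dvd_of_roots_transfer hf0 hs (u := ⟨X, hXB⟩) (k := 12 * (ℓ + 1)) hcX
    (A₁ := a.val * 12) (B₁ := s)
    (c₁ := (π ^ t) ^ (ℓ + 1) * c₂ ^ 12 * c₁ ^ (12 * (q - 1))) ?_
    (H := H ^ 12 / al c₁ ^ 12) ?_ ?_
  · have hint : (q : ℤ) ∣ 12 * ((a.val : ℤ) - ((ℓ : ℤ) + 1)) * s := by
      convert hdvd using 1
      push_cast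
      ring
    have hp := Nat.prime_iff_prime_int.mp hq
    rcases hp.dvd_or_dvd hint with h1 | h1
    · rcases hp.dvd_or_dvd h1 with h2 | h2
      · exfalso
        have h12 : q ∣ 12 := by exact_mod_cast h2
        rcases hq.dvd_mul.mp (show q ∣ 4 * 3 from h12) with h3 | h3 <;>
          have := Nat.le_of_dvd (by norm_num) h3 <;> omega
      · exfalso
        apply ha
        have h3 := (ZMod.intCast_zmod_eq_zero_iff_dvd _ _).mpr h2
        push_cast at h3
        rw [ZMod.natCast_zmod_val] at h3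
        exact sub_eq_zero.mp h3
    · exact_mod_cast h1
  · exact mul_ne_zero (mul_ne_zero (pow_ne_zero _ (pow_ne_zero _ h.irreducible.ne_zero))
      (pow_ne_zero _ hc₂)) (pow_ne_zero _ hc₁)
  · exact div_ne_zero (pow_ne_zero _ hH) (pow_ne_zero _
      ((map_ne_zero_iff al algebraMap_fld₀_injective).mpr hc₁))
  · intro mm hmm
    have h1 := hT mm hmm
    have hc : al c₁ ^ 12 ≠ 0 := pow_ne_zero _ ((map_ne_zero_iff al algebraMap_fld₀_injective).mpr hc₁)
    have hg12 : al c₁ ^ 12 * g ^ 12 = al c₂ ^ 12 * (f ^ (a.val * 12) * (H ^ 12) ^ q) := by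
      rw [← mul_pow, show al c₁ * g = al c₂ * (f ^ a.val * H ^ q) from hgeq, mul_pow, mul_pow,
        ← pow_mul, ← pow_mul, ← pow_mul, mul_comm q 12]
    have he : al ((π ^ t) ^ (ℓ + 1) * c₂ ^ 12 * c₁ ^ (12 * (q - 1))) *
        (f ^ (a.val * 12) * ((⟨X, hXB⟩ : Bl) : Fld₀ O E q m) ^ s * (H ^ 12 / al c₁ ^ 12) ^ q) =
        (al π ^ t) ^ (ℓ + 1) * (g ^ 12 * X ^ s) := by
      have hcq : al c₁ ^ (12 * (q - 1)) * al c₁ ^ 12 = (al c₁ ^ 12) ^ q := by
        rw [← pow_add, ← pow_mul, ← Nat.mul_succ, Nat.succ_eq_add_one, Nat.sub_add_cancel hq.pos]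
      rw [map_mul, map_mul, map_pow, map_pow, map_pow, map_pow, div_pow, mul_div_assoc',
        mul_div_assoc', div_eq_iff (pow_ne_zero _ hc), ← hcq]
      linear_combination -((al π ^ t) ^ (ℓ + 1) * X ^ s * al c₁ ^ (12 * (q - 1))) * hg12
    rw [he]
    exact h1

end Level

variable {q m N : ℕ} [NeZero (q * m)] [NeZero N] [hq' : Fact q.Prime]

/-- The constant exponent of an eigen Kummer function is divisible by `q`. -/
theorem dvd_exponent (hq : q.Prime) (hA : A.LiesOverPrime q) (h5 : 5 ≤ q) (hqm : ¬ q ∣ m)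
    (hζ : zetaQ (q * m) ∈ L) (hcharts : ChartsSemi A q m) [IsDiscreteValuationRing (rBase A L)]
    (hN : N ∣ q * m) (l : GoodPrime N) (hl : ((l : ℕ) : ZMod (q * m)) = 1) {a : ZMod q}
    (ha : a ≠ ((l : ℕ) : ZMod q) + 1) {χ : ParHom N (ZMod q)} (heig : heckeHomAt l χ = a • χ)
    {F : ℍ → ℂ} (hF : IsRepG (Gamma0 N) q χ F) {b : bddMF (embR A L hζ)}
    (hb : ((b : MF (q * m)) : ℍ → ℂ) = F ^ q) {f : rTop A L hζ q m} (hf0 : f ≠ 0)
    (hf : (f : Fld (embR A L hζ)) = toFld (embR A L hζ) b) {s : ℕ}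
    (hs : ExpEq (model₀ (rBase A L) (embR A L hζ) q m).B₀ (rUnif hq hA)
      (twoP (rBase A L) (embR A L hζ) q m (irreducible_rUnif hq hA)) (rIdx (L := L) hq hA)
      (algebraMap (wTop A (q * m) q m) (rTop A L hζ q m)).fieldRange q f s) :
    q ∣ s := by
  set ℓ : ℕ := (l : ℕ)
  have hg := goodIndex l
  haveI : Fact ℓ.Prime := ⟨hg.prime⟩
  haveI : NeZero ℓ := ⟨hg.prime.ne_zero⟩
  have hqM : q ∣ q * m := dvd_mul_right q m
  have hmM : m ∣ q * m := dvd_mul_left m q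
  have hql : ¬ q ∣ ℓ := fun h => by
    have hℓq : ((ℓ : ℕ) : ZMod q) = 1 := by
      have := congrArg (ZMod.castHom hqM (ZMod q)) hl
      rwa [map_natCast, map_one] at this
    rw [(ZMod.natCast_eq_zero_iff ℓ q).mpr h] at hℓq
    exact zero_ne_one hℓq
  obtain ⟨z, hz, hzu⟩ := exists_rBase_zeta (A := A) (L := L) hζ hq hA hql
  obtain ⟨u, v, N', c₀, huc, huv, hu⟩ := exists_nodeUnit hq hA hqm hζ hcharts
  obtain ⟨g, H, c₁, c₂, hc₁, hc₂, hH, hgser, hgeq⟩ := exists_transfer_eq hqM hmM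
    (baseK_self (hζ := hζ)) (fun γ hγ => levelG_le_gamma0 hq hqm hN hγ) hg hl
    (hz ▸ (embR A L hζ).φ_mem z) heig hF hb hf
  exact dvd_exponent_level h5 (irreducible_rUnif hq hA) (isWildModel hq hA hqm hζ hcharts) hqM hmM
    (baseK_self (hζ := hζ)) hl hz hzu hf0 (off_roots_kummer hq hA h5 hqm rfl hN hF hb hf0 hf).1
    hs huc huv hu ha hc₁ hc₂ hH hgser hgeq

/-- A constant exponent of an eigen Kummer function is zero. -/
theorem expEq_zero (hq : q.Prime) (hA : A.LiesOverPrime q) (h5 : 5 ≤ q) (hqm : ¬ q ∣ m)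
    (hζ : zetaQ (q * m) ∈ L) (hcharts : ChartsSemi A q m) [IsDiscreteValuationRing (rBase A L)]
    (hN : N ∣ q * m) (l : GoodPrime N) (hl : ((l : ℕ) : ZMod (q * m)) = 1) {a : ZMod q}
    (ha : a ≠ ((l : ℕ) : ZMod q) + 1) {χ : ParHom N (ZMod q)} (heig : heckeHomAt l χ = a • χ)
    {F : ℍ → ℂ} (hF : IsRepG (Gamma0 N) q χ F) {b : bddMF (embR A L hζ)}
    (hb : ((b : MF (q * m)) : ℍ → ℂ) = F ^ q) {f : rTop A L hζ q m} (hf0 : f ≠ 0)
    (hf : (f : Fld (embR A L hζ)) = toFld (embR A L hζ) b) {s : ℕ}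
    (hs₀ : ExpEq (model₀ (rBase A L) (embR A L hζ) q m).B₀ (rUnif hq hA)
      (twoP (rBase A L) (embR A L hζ) q m (irreducible_rUnif hq hA)) (rIdx (L := L) hq hA)
      (algebraMap (wTop A (q * m) q m) (rTop A L hζ q m)).fieldRange q f s)
    (hs₁ : ExpEq (model₀ (rBase A L) (embR A L hζ) q m).B₁ (rUnif hq hA)
      (twoP (rBase A L) (embR A L hζ) q m (irreducible_rUnif hq hA)) (rIdx (L := L) hq hA)
      (algebraMap (wTop A (q * m) q m) (rTop A L hζ q m)).fieldRange q f s) :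
    ExpEq (model₀ (rBase A L) (embR A L hζ) q m).B₀ (rUnif hq hA)
        (twoP (rBase A L) (embR A L hζ) q m (irreducible_rUnif hq hA)) (rIdx (L := L) hq hA)
        (algebraMap (wTop A (q * m) q m) (rTop A L hζ q m)).fieldRange q f 0 ∧
      ExpEq (model₀ (rBase A L) (embR A L hζ) q m).B₁ (rUnif hq hA)
        (twoP (rBase A L) (embR A L hζ) q m (irreducible_rUnif hq hA)) (rIdx (L := L) hq hA)
        (algebraMap (wTop A (q * m) q m) (rTop A L hζ q m)).fieldRange q f 0 := by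
  have h0 := dvd_exponent hq hA h5 hqm hζ hcharts hN l hl ha heig hF hb hf0 hf hs₀
  exact ⟨expEq_of_dvd hs₀ h0, expEq_of_dvd hs₁ h0⟩

end Fermat.Agent.GalRep.WildModel
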