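/-
Classes fixed by the inertia elements fixing the base field give Kummer functions of the wild model.
-/
import Fermat.Agent.GalRep.WildModel.OffRoots
import Fermat.Agent.GalRep.WildModel.Base
import Fermat.Agent.Models.Wild.Endgame

set_option autoImplicit false
set_option linter.style.haveILetI false
set_option linter.unusedSectionVars false

noncomputable section

namespace Fermat.Agent.GalRep.WildModel

open UpperHalfPlane CongruenceSubgroup IsLocalRing
open Fermat.Agent.ModField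
open Fermat.Agent.NewVec
open Fermat.Agent.GalRep Fermat.Agent.GalRep.Level
open Fermat.Agent.GalRep.InertiaBase
open Fermat.Agent.GalRep.Semistable (ChartsSemi repG_of_kummer)
open Fermat.Agent.Models (HasRootAt IsKummer)
open scoped MatrixGroups

variable {A : ValuationSubring (AlgebraicClosure ℚ)} {L : IntermediateField ℚ (AlgebraicClosure ℚ)}
  [FiniteDimensional ℚ L] [Normal ℚ L] {q m N : ℕ} [NeZero N] [Fact q.Prime] [NeZero (q * m)]
  {hζ : zetaQ (q * m) ∈ L}

/-- The function of a class with its roots off the special fibre. -/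
theorem exists_offKummer [IsDiscreteValuationRing (rBase A L)] (hq : q.Prime)
    (hA : A.LiesOverPrime q) (h5 : 5 ≤ q) (hqm : ¬ q ∣ m) (hN : N ∣ q * m)
    (χ : ParHom N (ZMod q))
    (hfix : ∀ s ∈ A.inertiaSubgroupIn ℚ, (∀ x ∈ L, s x = x) →
      (kummerGalois N q).galois s χ = χ) :
    ∃ (F : ℍ → ℂ) (b : bddMF (embR A L hζ)) (f : rTop A L hζ q m),
      IsRepG (Gamma0 N) q χ F ∧ ((b : MF (q * m)) : ℍ → ℂ) = F ^ q ∧
        (f : Fld (embR A L hζ)) = toFld (embR A L hζ) b ∧ f ≠ 0 ∧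
        (∀ Q : Ideal (model₀ (rBase A L) (embR A L hζ) q m).B₀, Q.IsPrime → Q ≠ ⊥ →
          algebraMap (rBase A L) _ (rUnif hq hA) ∉ Q → HasRootAt _ q f Q) ∧
        ∀ Q : Ideal (model₀ (rBase A L) (embR A L hζ) q m).B₁, Q.IsPrime → Q ≠ ⊥ →
          algebraMap (rBase A L) _ (rUnif hq hA) ∉ Q → HasRootAt _ q f Q := by
  obtain ⟨F, b, f, hF, hb, hfb, hf⟩ := exists_kummerFun (hζ := hζ) hq hqm rfl hN χ hfix
  exact ⟨F, b, f, hF, hb, hfb, hf, off_roots_kummer hq hA h5 hqm rfl hN hF hb hf hfb⟩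

/-- With `q` dividing the ramification the function is, up to a power of the uniformiser, a Kummer
function of the model. -/
theorem exists_isKummer [IsDiscreteValuationRing (rBase A L)] (hq : q.Prime)
    (hA : A.LiesOverPrime q) (h5 : 5 ≤ q) (hqm : ¬ q ∣ m) (hcharts : ChartsSemi A q m)
    (hN : N ∣ q * m) (hqe : q ∣ rIdx (L := L) hq hA) (χ : ParHom N (ZMod q))
    (hfix : ∀ s ∈ A.inertiaSubgroupIn ℚ, (∀ x ∈ L, s x = x) →
      (kummerGalois N q).galois s χ = χ) :
    ∃ (F : ℍ → ℂ) (b : bddMF (embR A L hζ)) (f : rTop A L hζ q m) (t : ℕ),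
      IsRepG (Gamma0 N) q χ F ∧ ((b : MF (q * m)) : ℍ → ℂ) = F ^ q ∧
        (f : Fld (embR A L hζ)) = toFld (embR A L hζ) b ∧ f ≠ 0 ∧
        IsKummer (model₀ (rBase A L) (embR A L hζ) q m) (rUnif hq hA)
          (twoP (rBase A L) (embR A L hζ) q m (irreducible_rUnif hq hA)) q
          (algebraMap (rBase A L) (rTop A L hζ q m) (rUnif hq hA) ^ t * f) := by
  obtain ⟨F, b, f, hF, hb, hfb, hf, h₀, h₁⟩ := exists_offKummer (hζ := hζ) hq hA h5 hqm hN χ hfix
  obtain ⟨t, ht⟩ := (isWildModel hq hA hqm hζ hcharts).exists_scaling hf h₀ h₁ (Or.inl hqe)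
  exact ⟨F, b, f, t, hF, hb, hfb, hf, ht⟩

end Fermat.Agent.GalRep.WildModel
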